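import Fermat.Agent.RT.Carayol.CongLevel
import Mathlib.LinearAlgebra.FiniteDimensional.Basic
import Mathlib.RingTheory.Polynomial.Basic

/-!
# Elliptic points of order three, restriction to a multiple of the level, simultaneous eigenvectors
-/

set_option autoImplicit false

noncomputable section

namespace FLTAgent.RT.Carayol

open LevelRaise CongruenceSubgroup Polynomial
open scoped MatrixGroups
open ModularGroup

/-- `S T` has no fixed coset of `Γ₀(M)` if a prime `r ≡ 2` modulo `3` divides `M`. -/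
theorem ST_smul_ne {M r : ℕ} (hr : r.Prime) (hr3 : r % 3 = 2) (hrM : r ∣ M)
    (x : Cos (Gamma0 M)) : (S * T) • x ≠ x := by
  intro h
  have : Fact r.Prime := ⟨hr⟩
  set γ := cellG (S * T) x with hγ
  have hmem : ((matSL (γ : SL(2, ℤ)) 1 0 : ℤ) : ZMod r) = 0 :=
    (ZMod.intCast_zmod_eq_zero_iff_dvd _ _).mpr
      ((Int.natCast_dvd_natCast.mpr hrM).trans (mem_gamma0_iff.mp γ.2))
  have htr := trSL_cellG_of_fixed h
  rw [show trSL (S * T : SL(2, ℤ)) = 1 by
    show Matrix.trace (matSL (S * T)) = 1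
    rw [matSL_mul]
    simp [matSL, S, T, Matrix.trace_fin_two]] at htr
  have htr' : matSL (γ : SL(2, ℤ)) 0 0 + matSL (γ : SL(2, ℤ)) 1 1 = 1 := by
    rw [← htr, trSL, Matrix.trace_fin_two]
  have hdet := det_matSL (γ : SL(2, ℤ))
  have e1 := congrArg (fun z : ℤ => (z : ZMod r)) htr'
  have e2 := congrArg (fun z : ℤ => (z : ZMod r)) hdet
  simp only [Int.cast_add, Int.cast_one, Int.cast_sub, Int.cast_mul, hmem, mul_zero, sub_zero]
    at e1 e2
  set a : ZMod r := ((matSL (γ : SL(2, ℤ)) 0 0 : ℤ) : ZMod r)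
  have hq : a * a - a + 1 = 0 := by linear_combination (a * e1 - e2)
  have ha0 : a ≠ 0 := fun h0 => one_ne_zero (α := ZMod r) (by rw [h0] at hq; simpa using hq)
  have h3 : (-a) ^ 3 = 1 := by linear_combination (-(a + 1)) * hq
  have hn : -a = 1 := by
    have hp := ZMod.pow_card_sub_one_eq_one (neg_ne_zero.mpr ha0)
    obtain ⟨k, hk⟩ : ∃ k, r - 1 = 3 * k + 1 := ⟨(r - 2) / 3, by omega⟩
    rwa [hk, pow_succ, pow_mul, h3, one_pow, one_mul] at hp
  have h30 : ((3 : ℕ) : ZMod r) = 0 := by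
    rw [show a = -1 by rw [← neg_neg a, hn]] at hq
    push_cast
    linear_combination hq
  rw [ZMod.natCast_eq_zero_iff] at h30
  have := (Nat.prime_dvd_prime_iff_eq hr Nat.prime_three).mp h30
  omega

/-- Restriction to a further prime not invertible to zero is injective. -/
theorem eq_zero_of_resB_eq_zero {k : Type*} [Field k] {N r : ℕ} [NeZero N] (hr : r.Prime)
    (hrN : ¬ r ∣ N) (hrk : (r : k) ≠ 0) {φ : Coh N trivChar k}
    (h : resB k trivChar (dvd_mul_right N r) φ = 0) : φ = 0 := by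
  have : Fact r.Prime := ⟨hr⟩
  set ψ := toG0 N φ with hψ
  have hz : ∀ γ : Gamma0 N, (γ : SL(2, ℤ)) ∈ Gamma0 (N * r) → ψ (Additive.ofMul γ) = 0 :=
    fun γ hγ => by
      have := DFunLike.congr_fun h (Additive.ofMul ⟨γ, gamma0_le_triv _ hγ⟩)
      rw [resB_apply_apply] at this
      exact this
  have hmem : ∀ γ : SL(2, ℤ), γ ∈ Gamma0 N → ((matSL γ 1 0 : ℤ) : ZMod r) = 0 →
      γ ∈ Gamma0 (N * r) := fun γ hγ h0 => mem_gamma0_iff.mpr (by
    push_cast
    exact ((Nat.isCoprime_iff_coprime).mpr ((hr.coprime_iff_not_dvd).mpr hrN).symm).mul_dvd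
      (mem_gamma0_iff.mp hγ) ((ZMod.intCast_zmod_eq_zero_iff_dvd _ _).mp h0))
  let L : ℤ → Gamma0 N := fun j => ⟨slMk 1 0 ((N : ℤ) * j) 1 (by ring),
    mem_gamma0_iff.mpr (by simp)⟩
  have hL : ∀ i j, L (i + j) = L i * L j := fun i j => Subtype.ext (Subtype.ext (by
    show !![(1 : ℤ), 0; (N : ℤ) * (i + j), 1]
      = !![(1 : ℤ), 0; (N : ℤ) * i, 1] * !![(1 : ℤ), 0; (N : ℤ) * j, 1]
    ext a b
    fin_cases a <;> fin_cases b <;> simp [Matrix.mul_apply, Fin.sum_univ_two, mul_add]))
  let F : ℤ →+ k := AddMonoidHom.mk' (fun j => ψ (Additive.ofMul (L j)))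
    fun i j => by rw [hL, ofMul_mul, map_add]
  have hF : ∀ j, ψ (Additive.ofMul (L j)) = 0 := by
    intro j
    have h1 : F ((r : ℤ) * 1) = 0 := hz _ (hmem _ (L _).2 (by simp [L]))
    rw [← smul_eq_mul, map_zsmul, zsmul_eq_mul, Int.cast_natCast] at h1
    have h2 : F 1 = 0 := (mul_eq_zero.mp h1).resolve_left hrk
    show F j = 0
    rw [show j = j • (1 : ℤ) by simp, map_zsmul, h2, smul_zero]
  have key : ∀ γ : Gamma0 N, ((matSL (γ : SL(2, ℤ)) 0 0 : ℤ) : ZMod r) ≠ 0 →
      ψ (Additive.ofMul γ) = 0 := by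
    intro γ ha
    obtain ⟨j, hj⟩ : ∃ j : ℤ,
        ((N : ZMod r) * (j : ZMod r) * (matSL (γ : SL(2, ℤ)) 0 0 : ℤ)
          + (matSL (γ : SL(2, ℤ)) 1 0 : ℤ)) = 0 := by
      have hN : (N : ZMod r) ≠ 0 := by rwa [Ne, ZMod.natCast_eq_zero_iff]
      refine ⟨((-((matSL (γ : SL(2, ℤ)) 1 0 : ℤ) : ZMod r) /
        (N * (matSL (γ : SL(2, ℤ)) 0 0 : ℤ)) : ZMod r).val : ℤ), ?_⟩
      push_cast
      rw [ZMod.natCast_zmod_val]
      field_simp
      ring
    have h0 := hz (L j * γ) (hmem _ (L j * γ).2 (by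
      simp only [Subgroup.coe_mul, matSL_mul, Matrix.mul_apply, Fin.sum_univ_two]
      simp [L]
      linear_combination hj))
    rw [ofMul_mul, map_add, hF, zero_add] at h0
    exact h0
  have hall : ∀ γ : Gamma0 N, ψ (Additive.ofMul γ) = 0 := by
    intro γ
    by_cases ha : ((matSL (γ : SL(2, ℤ)) 0 0 : ℤ) : ZMod r) = 0
    · let t : Gamma0 N := ⟨slMk 1 1 0 1 (by ring), mem_gamma0_iff.mpr (by simp)⟩
      have hc : ((matSL (γ : SL(2, ℤ)) 1 0 : ℤ) : ZMod r) ≠ 0 := fun hc => by
        have e := congrArg (fun z : ℤ => (z : ZMod r)) (det_matSL (γ : SL(2, ℤ)))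
        simp only [Int.cast_sub, Int.cast_mul, Int.cast_one, ha, hc, zero_mul, mul_zero,
          sub_self] at e
        exact zero_ne_one e
      have h0 := key (t * γ) (by
        simp only [Subgroup.coe_mul, matSL_mul, Matrix.mul_apply, Fin.sum_univ_two]
        simpa [t, ha] using hc)
      rw [ofMul_mul, map_add, hz t (hmem _ t.2 (by simp [t])), zero_add] at h0
      exact h0
    · exact key γ ha
  refine AddMonoidHom.ext fun γ => ?_
  obtain ⟨γ, rfl⟩ := Additive.ofMul.surjective γ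
  exact hall ⟨γ, gammaH_le γ.2⟩

section Eigen

variable {k V V' : Type*} [Field k] [AddCommGroup V] [Module k V] [FiniteDimensional k V]
  [AddCommGroup V'] [Module k V']

/-- An eigensystem in the image of an equivariant map occurs in the source. -/
theorem exists_common_eigen_of_map {ι : Type*} (f : V →ₗ[k] V') (T : ι → Module.End k V)
    (T' : ι → Module.End k V') (hcomm : ∀ i j, Commute (T i) (T j))
    (hf : ∀ i v, f (T i v) = T' i (f v)) (a : ι → k) {w : V'} (hw : w ≠ 0) {v₀ : V} (hv₀ : f v₀ = w)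
    (hev : ∀ i, T' i w = a i • w) : ∃ v : V, v ≠ 0 ∧ ∀ i, T i v = a i • v := by
  classical
  let g : ι → Module.End k V := fun i => T i - algebraMap k _ (a i)
  have hg : ∀ i j, Commute (g i) (g j) := fun i j =>
    ((hcomm i j).sub_right (Algebra.commute_algebraMap_right _ _)).sub_left
      (Algebra.commute_algebraMap_left _ _)
  have hfg : ∀ i v, f (g i v) = T' i (f v) - a i • f v := fun i v => by
    simp [g, map_sub, hf, Module.algebraMap_end_apply]
  -- stable subspaces reaching `w`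
  let P : Submodule k V → Prop := fun U => (∀ i, ∀ v ∈ U, g i v ∈ U) ∧ ∃ v ∈ U, f v = w
  obtain ⟨U, hU, hUmin⟩ := (wellFounded_lt (α := Submodule k V)).has_min {U | P U}
    ⟨⊤, fun _ _ _ => Submodule.mem_top, v₀, Submodule.mem_top, hv₀⟩
  obtain ⟨hUs, v₁, hv₁, hfv₁⟩ := hU
  have hnil : ∀ i, ∃ n : ℕ, ∀ v ∈ U, (g i ^ n) v = 0 := by
    intro i
    set μ := minpoly k (g i)
    have hμ0 : μ ≠ 0 := minpoly.ne_zero (Algebra.IsIntegral.isIntegral _)
    obtain ⟨h, hμ, hh⟩ := Polynomial.exists_eq_pow_rootMultiplicity_mul_and_not_dvd μ hμ0 0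
    rw [map_zero, sub_zero] at hμ hh
    set n := μ.rootMultiplicity 0
    refine ⟨n, ?_⟩
    have hh0 : h.coeff 0 ≠ 0 := fun h0 => hh (Polynomial.X_dvd_iff.mpr h0)
    have hpow : ∀ (p : k[X]) (v : V), v ∈ U → aeval (g i) p v ∈ U := by
      intro p v hv
      induction p using Polynomial.induction_on' with
      | add p q hp hq => rw [map_add, LinearMap.add_apply]; exact U.add_mem hp hq
      | monomial m c =>
        rw [aeval_monomial, Module.End.mul_apply, Module.algebraMap_end_apply]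
        refine U.smul_mem c ?_
        induction m with
        | zero => simpa using hv
        | succ m ih => rw [pow_succ', Module.End.mul_apply]; exact hUs i _ ih
    have hfp : ∀ (p : k[X]), f (aeval (g i) p v₁) = p.coeff 0 • w := by
      intro p
      induction p using Polynomial.induction_on' with
      | add p q hp hq => rw [map_add, LinearMap.add_apply, map_add, hp, hq, coeff_add, add_smul]
      | monomial m c =>
        rw [aeval_monomial, Module.End.mul_apply, Module.algebraMap_end_apply, map_smul,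
          coeff_monomial]
        rcases m with _ | m
        · simp [hfv₁]
        · rw [pow_succ', Module.End.mul_apply, hfg, if_neg (Nat.succ_ne_zero m)]
          have hw' : ∀ m, ∃ b : k, f ((g i ^ m) v₁) = b • w := fun m => by
            induction m with
            | zero => exact ⟨1, by simp [hfv₁]⟩
            | succ m ih =>
              obtain ⟨b, hb⟩ := ih
              exact ⟨0, by rw [pow_succ', Module.End.mul_apply, hfg, hb, map_smul, hev,
                smul_comm (a i), sub_self, zero_smul]⟩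
          obtain ⟨b, hb⟩ := hw' m
          rw [hb, map_smul, hev, smul_comm (a i), sub_self, smul_zero, zero_smul]
    let U' : Submodule k V := U ⊓ LinearMap.ker (g i ^ n)
    have hPU' : P U' := by
      refine ⟨fun j v hv => ⟨hUs j v hv.1, ?_⟩, (h.coeff 0)⁻¹ • aeval (g i) h v₁, ?_, ?_⟩
      · show (g i ^ n) (g j v) = 0
        rw [← Module.End.mul_apply, ((hg i j).pow_left n).eq, Module.End.mul_apply,
          show (g i ^ n) v = 0 from hv.2, map_zero]
      · refine U'.smul_mem _ ⟨hpow h v₁ hv₁, ?_⟩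
        show (g i ^ n) (aeval (g i) h v₁) = 0
        have := congrArg (fun p => aeval (g i) p v₁) hμ
        simp only [μ, minpoly.aeval, map_mul, map_pow, aeval_X, Module.End.mul_apply,
          LinearMap.zero_apply] at this
        exact this.symm
      · rw [map_smul, hfp, smul_smul, inv_mul_cancel₀ hh0, one_smul]
    intro v hv
    have : U' = U := eq_of_le_of_not_lt inf_le_left (hUmin U' hPU')
    exact ((this ▸ hv : v ∈ U')).2
  -- a minimal nonzero stable subspace of `U`
  obtain ⟨U₀, ⟨hU₀, hU₀0, hU₀U⟩, hU₀min⟩ := (wellFounded_lt (α := Submodule k V)).has_min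
    {U₀ | (∀ i, ∀ v ∈ U₀, g i v ∈ U₀) ∧ U₀ ≠ ⊥ ∧ U₀ ≤ U}
    ⟨U, hUs, fun h0 => hw (by rw [← hfv₁, show v₁ = 0 from (Submodule.mem_bot k).mp (h0 ▸ hv₁), map_zero]), le_rfl⟩
  obtain ⟨v, hv, hv0⟩ := Submodule.exists_mem_ne_zero_of_ne_bot hU₀0
  refine ⟨v, hv0, fun i => ?_⟩
  have hker : U₀ ⊓ LinearMap.ker (g i) = U₀ := by
    refine eq_of_le_of_not_lt inf_le_left (hU₀min _ ⟨fun j u hu => ⟨hU₀ j u hu.1, ?_⟩, ?_,
      inf_le_left.trans hU₀U⟩)
    · show g i (g j u) = 0
      rw [← Module.End.mul_apply, (hg i j).eq, Module.End.mul_apply, show g i u = 0 from hu.2,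
        map_zero]
    · intro hbot
      obtain ⟨n, hn⟩ := hnil i
      have : ∀ m, ∀ u ∈ U₀, u ≠ 0 → (g i ^ m) u ≠ 0 := fun m => by
        induction m with
        | zero => intro u _ hu; simpa using hu
        | succ m ih =>
          intro u hu hu0
          rw [pow_succ, Module.End.mul_apply]
          refine ih _ (hU₀ i u hu) fun h0 => hu0 ?_
          exact (Submodule.mem_bot k).mp (hbot ▸ (⟨hu, h0⟩ : u ∈ U₀ ⊓ LinearMap.ker (g i)))
      exact this n v hv hv0 (hn v (hU₀U hv))
  have h0 : g i v = 0 := (hker.ge hv).2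
  rwa [LinearMap.sub_apply, Module.algebraMap_end_apply, sub_eq_zero] at h0

end Eigen

end FLTAgent.RT.Carayol
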