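import Fermat.Agent.RT.Carayol.Torsion
import Fermat.Agent.RT.Carayol.Main
import Fermat.Agent.RT.Carayol.Geom.Balanced
import Fermat.Agent.RT.Setting.Sys
import Fermat.Agent.RT.Ihara.Parabolic
import Fermat.Agent.RT.Irr.Residual
import Fermat.Agent.RT.Shell
import Fermat.Agent.GoodRed.QbarPlace
import Fermat.Agent.LevelSq.Rational
import Fermat.Agent.LevelSq.ConjProd
import Fermat.Agent.LevelSq.SqDataBuild
import Fermat.Agent.LevelSq.VerticalBalanced

/-!
# Removing the square of a prime from a residual level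

An irreducible semistable `W[p]` of level `q ^ 2 M`, `q ≠ p`, has level `q M`, with a further prime
`r ≡ 2 (mod 3)` if `p = 3`.
-/

set_option autoImplicit false
set_option linter.style.haveILetI false
set_option synthInstance.maxHeartbeats 100000

noncomputable section

namespace FLTAgent.RT.Carayol

open ModularCurve AlgebraicCurve WeierstrassCurve CongruenceSubgroup
open FLTAgent.LevelSq FLTAgent.Hecke
open scoped MatrixGroups

local notation "Qbar" => AlgebraicClosure ℚ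

variable {W : WeierstrassCurve ℤ} {p : ℕ} [Fact p.Prime]

/-- A class with the eigenvalues of an irreducible `W[p]` gives residual modularity. -/
theorem isResiduallyModularOfLevel_of_coh {L : ℕ} [NeZero L] (hΔ : W.Δ ≠ 0) (hp2 : p ≠ 2)
    (hirr : W.ModRepIsIrreducible p) (h3 : p ≠ 3 ∨ nuThree L = 0)
    {θ : Coh L trivChar (ZMod p)} (hθ0 : θ ≠ 0)
    (heig : ∀ (ℓ : ℕ) (hℓ : ℓ.Prime) (hℓL : ¬ ℓ ∣ L), W.IsGoodPrimeFor ℓ → ℓ ≠ p →
      opT (ZMod p) (ZMod p) trivChar (one_dvd _) hℓ hℓL θ = (W.apOfModel ℓ : ZMod p) • θ) :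
    W.IsResiduallyModularOfLevel p L := by
  haveI : NeZero p := ⟨(Fact.out : p.Prime).ne_zero⟩
  set ψ := toG0 L θ with hψ
  have hop : ∀ (ℓ : ℕ) [NeZero ℓ] (hℓ : ℓ.Prime) (hℓL : ¬ ℓ ∣ L), W.IsGoodPrimeFor ℓ → ℓ ≠ p →
      LevelRaise.heckeOp L ℓ ψ = (W.apOfModel ℓ : ZMod p) • ψ := fun ℓ _ hℓ hℓL hg hp => by
    rw [hψ, ← toG0_opT (R := ZMod p) hℓ hℓL, heig ℓ hℓ hℓL hg hp, toG0_smul]
  have hsmul : ∀ {n : ℕ}, ¬ p ∣ n → ∀ a : ZMod p, n • a = 0 → a = 0 := fun hn a ha => by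
    rw [nsmul_eq_mul] at ha
    exact (mul_eq_zero.1 ha).resolve_left fun h => hn ((ZMod.natCast_eq_zero_iff _ _).1 h)
  have hpar : ∀ γ : Gamma0 L, Periods.IsEllPar γ → ψ (Additive.ofMul γ) = 0 := by
    obtain ⟨ℓ, hℓ, hℓL, hgood, hℓp, hℓ1, hne⟩ := exists_notEisenstein hΔ hp2 hirr L (NeZero.ne L)
    haveI : NeZero ℓ := ⟨hℓ.ne_zero⟩
    have h := mem_parHom_of_nilpotent hℓ hℓL hℓ1 (a := (W.apOfModel ℓ : ZMod p))
      ((sub_ne_zero.2 fun e => hne (by rw [← e]; push_cast; rfl)).isUnit)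
      (hsmul fun hd => hp2 ((Nat.prime_dvd_prime_iff_eq Fact.out Nat.prime_two).1 hd))
      (h3.imp_left fun h => hsmul fun hd =>
        h ((Nat.prime_dvd_prime_iff_eq Fact.out Nat.prime_three).1 hd))
      ψ (m := 1) (by rw [Function.iterate_one, hop ℓ hℓ hℓL hgood hℓp, sub_self])
    exact fun γ hγ => h γ hγ
  let χ : Gamma0 L →* ℂˣ :=
    { toFun := fun γ => JTors.zetaUnit p ^ (ψ (Additive.ofMul γ)).val
      map_one' := by rw [ofMul_one, map_zero, ZMod.val_zero, pow_zero]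
      map_mul' := fun γ δ => by
        rw [ofMul_mul, map_add, ← pow_add]
        rw [pow_eq_pow_iff_modEq, ← (JTors.isPrimitiveRoot_zetaUnit (NeZero.ne p)).eq_orderOf,
          ← ZMod.natCast_eq_natCast_iff, Nat.cast_add, ZMod.natCast_zmod_val, ZMod.natCast_zmod_val,
          ZMod.natCast_zmod_val] }
  obtain ⟨φ, hφ⟩ := JTors.exists_expChar_eq (N := L) (χ := χ) (NeZero.ne p)
    (fun γ => by
      rw [MonoidHom.coe_mk, OneHom.coe_mk, ← pow_mul, mul_comm, pow_mul,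
        (JTors.isPrimitiveRoot_zetaUnit (NeZero.ne p)).pow_eq_one, one_pow])
    (fun γ hγ => by rw [MonoidHom.coe_mk, OneHom.coe_mk, hpar γ hγ, ZMod.val_zero, pow_zero])
  have hval : ∀ γ : Gamma0 L,
      (φ (Periods.parProj L (Additive.ofMul γ)) : ZMod p) = ψ (Additive.ofMul γ) := fun γ => by
    have e := DFunLike.congr_fun hφ γ
    rw [JTors.expChar_apply, MonoidHom.coe_mk, OneHom.coe_mk, ← zpow_natCast, ← mul_inv_eq_one,
      ← zpow_neg, ← zpow_add,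
      (JTors.isPrimitiveRoot_zetaUnit (NeZero.ne p)).zpow_eq_one_iff_dvd,
      ← ZMod.intCast_zmod_eq_zero_iff_dvd, Int.cast_add, Int.cast_neg, Int.cast_natCast,
      ZMod.natCast_zmod_val, add_neg_eq_zero] at e
    exact e
  refine LevelLower.Endgame.isResiduallyModularOfLevel_of_eigenTorsion hΔ
    (x := JTors.torsionProj p 1 φ) ?_ ?_ (insert p W.Δ.natAbs.primeFactors) ?_
  · intro h0
    obtain ⟨ψ', hψ'⟩ := (JTors.torsionProj_eq_zero_iff p 1 φ).1 h0
    refine hθ0 ((toG0 L).injective (AddMonoidHom.ext fun γ => ?_))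
    obtain ⟨γ, rfl⟩ := Additive.ofMul.surjective γ
    rw [map_zero, AddMonoidHom.zero_apply, ← hψ, ← hval, hψ', AddMonoidHom.nsmul_apply, pow_one,
      nsmul_eq_mul, Int.cast_mul, Int.cast_natCast, ZMod.natCast_self, zero_mul]
  · rw [← map_nsmul]
    exact (JTors.torsionProj_eq_zero_iff p 1 _).2 ⟨φ, by rw [pow_one]⟩
  · intro ℓ hℓ hℓL hℓS
    simp only [Finset.mem_insert, Nat.mem_primeFactors, not_or] at hℓS
    have hgood : W.IsGoodPrimeFor ℓ := fun h =>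
      hℓS.2 ⟨hℓ, Int.natCast_dvd.1 h, Int.natAbs_ne_zero.2 hΔ⟩
    haveI : NeZero ℓ := ⟨hℓ.ne_zero⟩
    have hS := GalRep.notMem_levelPrimes (N := L) hℓL
    rw [← JTors.torsionProj_heckeAct p 1 hℓ hℓL hS φ, ← map_nsmul, ← sub_eq_zero, ← map_sub,
      JTors.torsionProj_eq_zero_iff]
    refine (JTors.expChar_eq_one_iff (pow_ne_zero 1 (NeZero.ne p)) _).1
      (MonoidHom.ext fun γ => ?_)
    rw [JTors.expChar_apply, MonoidHom.one_apply,
      (JTors.isPrimitiveRoot_zetaUnit (pow_ne_zero 1 (NeZero.ne p))).zpow_eq_one_iff_dvd,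
      pow_one, ← ZMod.intCast_zmod_eq_zero_iff_dvd, AddMonoidHom.sub_apply,
      AddMonoidHom.nsmul_apply]
    haveI : Fact ℓ.Prime := ⟨hℓ⟩
    obtain ⟨σ, δ, h⟩ := Periods.exists_isTransfer_tRep hℓL γ
    rw [Periods.heckeAct_T_apply (Periods.hdim L) hℓ hℓL hS φ γ σ δ h, Int.cast_sub, Int.cast_sum,
      nsmul_eq_mul, Int.cast_mul, Int.cast_natCast, frobTrace_cast hΔ hℓ hgood hℓS.1, hval,
      sub_eq_zero]
    simp only [hval]
    rw [← LevelRaise.heckeOp_apply hℓ hℓL ψ γ (isTransfer_of_isTransferZ h),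
      hop ℓ hℓ hℓL hgood hℓS.1]
    rfl

/-- The base model of level a multiple of `M`, prime to `q`. -/
def BaseModelExists (q : ℕ) [Fact q.Prime] : Prop :=
  ∀ (A : ValuationSubring Qbar), A.LiesOverPrime q → ∀ (M : ℕ), 0 < M → ¬ q ∣ M →
    ∀ [IsAlgClosed (IsLocalRing.ResidueField A)],
    ∃ (N : ℕ) (_ : NeZero N), M ∣ N ∧ ¬ q ∣ N ∧
      ∃ B : BaseData (urRing A) (q : urRing A) q (MF (urField A) N) (IsLocalRing.ResidueField A),
        IsBaseModel B

set_option maxHeartbeats 1000000 in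
/-- The class of a residual level `M q ^ 2` is balanced. -/
theorem exists_balanced_class (hΔ : W.Δ ≠ 0) (hsemi : W.IsSemistableModel) {q : ℕ} [Fact q.Prime]
    (hqp : q ≠ p) (hbase : BaseModelExists q) {M : ℕ} [NeZero M] [NeZero q]
    (WD : LevelRaise.WData M q) (hres : W.IsResiduallyModularOfLevel p (M * q * q)) :
    ∃ φ : Coh (M * q * q) trivChar (ZMod p), φ ≠ 0 ∧ IsBalancedClass WD φ ∧
      ∀ (ℓ : ℕ) (hℓ : ℓ.Prime) (hℓL : ¬ ℓ ∣ M * q * q), W.IsGoodPrimeFor ℓ → ℓ ≠ p →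
        opT (ZMod p) (ZMod p) trivChar (one_dvd _) hℓ hℓL φ = (W.apOfModel ℓ : ZMod p) • φ := by
  have hq : q.Prime := Fact.out
  obtain ⟨A, hA⟩ := Frobenius.exists_liesOverPrime hq
  haveI := GoodRed.isAlgClosed_residue A
  obtain ⟨x, hx, hx0, hfix⟩ := exists_torsEigen_fixed hΔ hsemi hq hqp hA hres
  obtain ⟨χ, φ, hχ, hφ0, hφ, heig⟩ := exists_coh_of_torsEigen hx hx0
  refine ⟨φ, hφ0, ?_, heig⟩
  obtain ⟨N, hN0, hMN, hqN, B, hB⟩ := hbase A hA M (NeZero.pos M) WD.not_dvd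
  haveI := hN0
  have hm : ¬ q ∣ p := fun h => hqp ((Nat.prime_dvd_prime_iff_eq hq Fact.out).1 h)
  obtain ⟨ζ, hζ, hζC⟩ := exists_zeta_complex q
  obtain ⟨D, f, f', hD, hf, hord, hser, hdiv⟩ := exists_rational_function
    (show M * q * q = q ^ 2 * M by ring) hMN hqN hA hm x hx.1 hfix
  have hp0 : p ≠ 0 := (Fact.out : p.Prime).ne_zero
  obtain ⟨χ', hχ'⟩ := JTors.exists_isRootChar (N := M * q * q) hp0 hf fun v => ⟨_, hord v⟩
  obtain rfl : χ' = χ :=
    JTors.IsTorsChar.unique hp0 ⟨D, f, hD, hf, fun v => (hord v).symm, hχ'⟩ hχ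
  have hf' : f' ≠ 0 := fun h => hf (Subtype.ext (by rw [← hser, h, map_zero]; rfl))
  obtain ⟨Sq, hSq⟩ := exists_sqData (A := A) hA hqN hζ B hB fun P hP =>
    exists_eq_branchVal hA hqN hζ (by rwa [hB.j_eq] at hP)
  exact isBalancedClass_of_roots hqN hζ hζC hMN WD hp0 hχ' hf' hser
    (fun c hc1 hc2 => exists_pow_eq_conjProd_of_sqData hA hqN hζ hB Sq hSq hm hf' hdiv c hc1 hc2)
    φ (rootLog p) (fun X _ u c hu h => rootLog_sum X u c hu h) hφ

/-- A square is removed from a residual level with any exponents. -/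
theorem removeSquare_step (hΔ : W.Δ ≠ 0) (hsemi : W.IsSemistableModel) (hp2 : p ≠ 2)
    (hirr : W.ModRepIsIrreducible p)
    (hbase : ∀ q : ℕ, ∀ [Fact q.Prime], q ≠ p → BaseModelExists q) {L q : ℕ} [Fact q.Prime]
    (hL : 0 < L) (hqp : q ≠ p) (hqL : L.factorization q = 2)
    (hres : W.IsResiduallyModularOfLevel p L) :
    ∃ M' : ℕ, 0 < M' ∧ M'.factorization q ≤ 1 ∧
      (∀ l : ℕ, M'.factorization l ≤ max (L.factorization l) 1) ∧
      W.IsResiduallyModularOfLevel p M' := by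
  have hq : q.Prime := Fact.out
  haveI : NeZero q := ⟨hq.ne_zero⟩
  obtain ⟨M, rfl⟩ : ∃ M, L = M * q * q := by
    obtain ⟨M, hM⟩ : q ^ 2 ∣ L := by
      have := Nat.ordProj_dvd L q
      rwa [hqL] at this
    exact ⟨M, by rw [hM]; ring⟩
  have hM0 : M ≠ 0 := fun h => by simp [h] at hL
  haveI : NeZero M := ⟨hM0⟩
  have hfact : ∀ l, (M * q * q).factorization l = M.factorization l + 2 * q.factorization l :=
    fun l => by
      rw [Nat.factorization_mul (mul_ne_zero hM0 hq.ne_zero) hq.ne_zero,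
        Nat.factorization_mul hM0 hq.ne_zero, Finsupp.add_apply, Finsupp.add_apply]
      ring
  have hqq : q.factorization q = 1 := hq.factorization_self
  have hqM : ¬ q ∣ M := fun h => by
    have := (hq.dvd_iff_one_le_factorization hM0).1 h
    have := hfact q
    omega
  obtain ⟨WD⟩ := LevelRaise.exists_wData hq hqM
  obtain ⟨φ, hφ0, hφ, heig⟩ := exists_balanced_class hΔ hsemi hqp (hbase q hqp) WD hres
  have h2 : (2 : ZMod p) ≠ 0 := fun h => hp2 <| (Nat.prime_dvd_prime_iff_eq Fact.out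
    Nat.prime_two).1 ((ZMod.natCast_eq_zero_iff _ _).1 (by exact_mod_cast h))
  let bad : Set ℕ := {ℓ | ℓ = p ∨ ¬ W.IsGoodPrimeFor ℓ}
  let a : ℕ → ZMod p := fun ℓ => (W.apOfModel ℓ : ZMod p)
  have heig' : ∀ (ℓ : ℕ) (hℓ : ℓ.Prime) (hℓN : ¬ ℓ ∣ M * q * q), ℓ ∉ bad →
      opT (ZMod p) (ZMod p) trivChar (one_dvd _) hℓ hℓN φ = a ℓ • φ := fun ℓ hℓ hℓN hb => by
    simp only [bad, Set.mem_ofPred_eq, not_or, not_not] at hb
    exact heig ℓ hℓ hℓN hb.2 hb.1
  have hne : ∀ Q : ℕ, Q ≠ 0 → ∃ ℓ : ℕ, ℓ.Prime ∧ ¬ ℓ ∣ M * q * q ∧ ℓ ∉ bad ∧ (ℓ : ZMod Q) = 1 ∧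
      a ℓ ≠ (ℓ : ZMod p) + 1 := fun Q hQ => by
    obtain ⟨ℓ, hℓ, hℓN, hg, hℓp, hℓQ, hne⟩ := exists_notEisenstein hΔ hp2 hirr (M * q * q) hQ
    exact ⟨ℓ, hℓ, hℓN, by simp [bad, hg, hℓp], hℓQ, hne⟩
  by_cases hp3 : p = 3
  · subst hp3
    obtain ⟨r, hr, hrS, -, hr3, -⟩ := FLTAgent.RTIrr.exists_auxiliary_prime_three hΔ hsemi hirr
      (insert 3 (M * q * q).primeFactors)
    simp only [Finset.mem_insert, not_or] at hrS
    have hrN : ¬ r ∣ M * q * q := fun h =>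
      hrS.2 (Nat.mem_primeFactors.2 ⟨hr, h, NeZero.ne _⟩)
    have hrk : (r : ZMod 3) ≠ 0 := fun h => hrS.1
      ((Nat.prime_dvd_prime_iff_eq Nat.prime_three hr).1 ((ZMod.natCast_eq_zero_iff _ _).1 h)).symm
    haveI : NeZero r := ⟨hr.ne_zero⟩
    obtain ⟨θ, hθ0, hθ⟩ := exists_eigen_qLevel_aux h2 WD bad a hφ0 hφ heig' hne hr hr3 hrN hrk
    refine ⟨M * r * q, Nat.pos_of_ne_zero (NeZero.ne _), ?_, fun l => ?_,
      isResiduallyModularOfLevel_of_coh hΔ hp2 hirr (Or.inr (nuThree_eq_zero_of_dvd hr hr3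
        (dvd_mul_of_dvd_left (dvd_mul_left r M) q))) hθ0
        fun ℓ hℓ hℓL hg hℓp => hθ ℓ hℓ hℓL (by simp [bad, hg, hℓp])⟩
    all_goals
      rw [Nat.factorization_mul (NeZero.ne _) hq.ne_zero, Finsupp.add_apply,
        Nat.factorization_mul hM0 hr.ne_zero, Finsupp.add_apply]
    · have hrq : r ≠ q := fun e => hrN (by rw [e]; exact dvd_mul_left q _)
      rw [Nat.factorization_eq_zero_of_not_dvd hqM, hqq, hr.factorization,
        Finsupp.single_eq_of_ne hrq.symm]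
      all_goals omega
    · rw [hr.factorization, hfact]
      rcases eq_or_ne l r with rfl | hlr
      · rw [Finsupp.single_eq_same, Nat.factorization_eq_zero_of_not_dvd (n := M)
          (fun h => hrN ((h.mul_right q).mul_right q)), hq.factorization,
          Finsupp.single_eq_of_ne (fun e => hrN (by rw [e]; exact dvd_mul_left q _))]
        omega
      · rw [Finsupp.single_eq_of_ne hlr]
        omega
  · obtain ⟨θ, hθ0, hθ⟩ := exists_eigen_qLevel h2 WD bad a hφ0 hφ heig' hne (Or.inl fun h => hp3 <|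
      (Nat.prime_dvd_prime_iff_eq Fact.out Nat.prime_three).1
        ((ZMod.natCast_eq_zero_iff _ _).1 (by exact_mod_cast h)))
    refine ⟨M * q, Nat.pos_of_ne_zero (NeZero.ne _), ?_, fun l => ?_,
      isResiduallyModularOfLevel_of_coh hΔ hp2 hirr (Or.inl hp3) hθ0
        fun ℓ hℓ hℓL hg hℓp => hθ ℓ hℓ hℓL (by simp [bad, hg, hℓp])⟩
    all_goals rw [Nat.factorization_mul hM0 hq.ne_zero, Finsupp.add_apply]
    · rw [Nat.factorization_eq_zero_of_not_dvd hqM, hqq]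
    · rw [hfact]; omega

/-- **A square is removed from the residual level.** -/
theorem removeSquare (hΔ : W.Δ ≠ 0) (hsemi : W.IsSemistableModel) (hp2 : p ≠ 2)
    (hirr : W.ModRepIsIrreducible p)
    (hbase : ∀ q : ℕ, ∀ [Fact q.Prime], q ≠ p → BaseModelExists q) : Shell.RemoveSquare W p :=
  fun _ q hL hq hqp hqL _ _ hres =>
    haveI := Fact.mk hq
    removeSquare_step hΔ hsemi hp2 hirr hbase hL hqp hqL hres

end FLTAgent.RT.Carayol
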