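import Fermat.Agent.LevelSq.GeometryInst
import Fermat.Agent.LevelPow.Geometry

/-!
Removal of squares and of higher powers from residual levels, with the base models plugged in.
-/

set_option autoImplicit false
set_option synthInstance.maxHeartbeats 100000

noncomputable section

namespace FLTAgent.RT.Carayol

variable {W : WeierstrassCurve ℤ} {p : ℕ} [Fact p.Prime]

theorem baseModelExists (q : ℕ) [Fact q.Prime] : BaseModelExists q :=
  fun _ hA M hM hqM _ => LevelSq.exists_baseModel hA M hM hqM

theorem powGeometryExists_inst (q : ℕ) [Fact q.Prime] [NeZero q] : PowGeometryExists q :=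
  LevelPow.powGeometryExists (baseModelExists q)

/-- A square is removed from the residual level. -/
theorem removeSquare_inst (hΔ : W.Δ ≠ 0) (hsemi : W.IsSemistableModel) (hp2 : p ≠ 2)
    (hirr : W.ModRepIsIrreducible p) : Shell.RemoveSquare W p :=
  removeSquare hΔ hsemi hp2 hirr fun q _ _ => baseModelExists q

/-- Every exponent away from `p` comes down to at most one. -/
theorem exists_lowerPow_le_one_inst (hΔ : W.Δ ≠ 0) (hsemi : W.IsSemistableModel) (hp2 : p ≠ 2)
    (hirr : W.ModRepIsIrreducible p) {N : ℕ} (hN : 0 < N)
    (hres : W.IsResiduallyModularOfLevel p N) :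
    ∃ M' : ℕ, 0 < M' ∧ (∀ l : ℕ, l ≠ p → M'.factorization l ≤ 1) ∧
      M'.factorization p ≤ max (N.factorization p) 1 ∧ W.IsResiduallyModularOfLevel p M' :=
  exists_lowerPow_le_one hΔ hsemi hp2 hirr (fun q _ _ => baseModelExists q)
    (fun q _ _ _ => powGeometryExists_inst q) hN hres

end FLTAgent.RT.Carayol
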