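import Fermat.Agent.RT.Coh.Eisenstein

/-!
# The representatives of determinant `ℓ` congruent to `1` modulo `Q`

For `ℓ ≡ 1` modulo `Q` they are permuted by right multiplication by every `g`, with cofactors
congruent to `g` modulo `Q`.
-/

set_option autoImplicit false

noncomputable section

namespace FLTAgent.RT.Carayol

open LevelRaise CongruenceSubgroup
open scoped MatrixGroups

variable {Q ℓ : ℕ} [Fact ℓ.Prime]

theorem congRep_det (i : Option (ZMod ℓ)) : (congRep Q ℓ i).det = ℓ := by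
  rcases i with _ | j <;> simp [congRep, Matrix.det_fin_two_of]

theorem congRep_det_ne (i : Option (ZMod ℓ)) : (congRep Q ℓ i).det ≠ 0 := by
  rw [congRep_det]; exact_mod_cast (Fact.out : ℓ.Prime).ne_zero

omit [Fact ℓ.Prime] in
theorem congRep_map (h1 : (ℓ : ZMod Q) = 1) (i : Option (ZMod ℓ)) :
    (congRep Q ℓ i).map (fun z : ℤ => (z : ZMod Q)) = 1 := by
  rcases i with _ | j <;> ext r s <;> fin_cases r <;> fin_cases s <;>
    simp [congRep, h1, -ZMod.natCast_val]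

/-- Every matrix of determinant `ℓ` is in one of the left classes. -/
theorem exists_congRep_cover (hℓQ : ¬ ℓ ∣ Q) (X : Matrix (Fin 2) (Fin 2) ℤ) (hX : X.det = ℓ) :
    ∃ (k : Option (ZMod ℓ)) (γ : SL(2, ℤ)), X = matSL γ * congRep Q ℓ k := by
  have hℓ : ℓ.Prime := Fact.out
  have hℓ0 : (ℓ : ℤ) ≠ 0 := by exact_mod_cast hℓ.ne_zero
  have hdet : X 0 0 * X 1 1 - X 0 1 * X 1 0 = ℓ := by rw [← hX, Matrix.det_fin_two]
  have hcast : (X 0 0 : ZMod ℓ) * X 1 1 - (X 0 1 : ZMod ℓ) * X 1 0 = 0 := by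
    have := congrArg (fun z : ℤ => (z : ZMod ℓ)) hdet
    simpa using this
  by_cases h : (X 0 0 : ZMod ℓ) = 0 ∧ (X 1 0 : ZMod ℓ) = 0
  · obtain ⟨a, ha⟩ := (ZMod.intCast_zmod_eq_zero_iff_dvd _ ℓ).1 h.1
    obtain ⟨c, hc⟩ := (ZMod.intCast_zmod_eq_zero_iff_dvd _ ℓ).1 h.2
    refine ⟨none, ⟨!![a, X 0 1; c, X 1 1], ?_⟩, ?_⟩
    · rw [Matrix.det_fin_two_of]
      refine mul_left_cancel₀ hℓ0 ?_
      linear_combination hdet - X 1 1 * ha + X 0 1 * hc
    · ext r s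
      fin_cases r <;> fin_cases s <;>
        simp [congRep, matSL, Matrix.mul_apply, Fin.sum_univ_two, ha, hc, mul_comm]
  · have hQ : (Q : ZMod ℓ) ≠ 0 := by rwa [Ne, ZMod.natCast_eq_zero_iff]
    obtain ⟨j, h0, h1⟩ : ∃ j : ZMod ℓ, (X 0 1 : ZMod ℓ) = X 0 0 * (j * Q) ∧
        (X 1 1 : ZMod ℓ) = X 1 0 * (j * Q) := by
      by_cases h00 : (X 0 0 : ZMod ℓ) = 0
      · have h10 : (X 1 0 : ZMod ℓ) ≠ 0 := fun hc => h ⟨h00, hc⟩
        refine ⟨X 1 1 / X 1 0 / Q, ?_, ?_⟩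
        · rw [h00, zero_mul]
          rw [h00, zero_mul, zero_sub, neg_eq_zero] at hcast
          exact (mul_eq_zero.1 hcast).resolve_right h10
        · field_simp
      · refine ⟨X 0 1 / X 0 0 / Q, by field_simp, ?_⟩
        field_simp
        linear_combination hcast
    obtain ⟨b, hb⟩ := (ZMod.intCast_zmod_eq_zero_iff_dvd (X 0 1 - X 0 0 * ((j.val : ℤ) * Q)) ℓ).1
      (by push_cast; rw [ZMod.natCast_zmod_val, h0, sub_self])
    obtain ⟨d, hd⟩ := (ZMod.intCast_zmod_eq_zero_iff_dvd (X 1 1 - X 1 0 * ((j.val : ℤ) * Q)) ℓ).1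
      (by push_cast; rw [ZMod.natCast_zmod_val, h1, sub_self])
    refine ⟨some j, ⟨!![X 0 0, b; X 1 0, d], ?_⟩, ?_⟩
    · rw [Matrix.det_fin_two_of]
      refine mul_left_cancel₀ hℓ0 ?_
      linear_combination hdet - X 0 0 * hd + X 1 0 * hb
    · ext r s
      fin_cases r <;> fin_cases s <;>
        simp [congRep, matSL, Matrix.mul_apply, Fin.sum_univ_two, -ZMod.natCast_val]
      · linear_combination hb
      · linear_combination hd

/-- The cofactors of `g` are congruent to `g`. -/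
theorem exists_congRep_transfer (hℓQ : ¬ ℓ ∣ Q) (h1 : (ℓ : ZMod Q) = 1) (g : SL(2, ℤ)) :
    ∃ (σ : Equiv.Perm (Option (ZMod ℓ))) (δ : Option (ZMod ℓ) → SL(2, ℤ)),
      (∀ i, congRep Q ℓ i * matSL g = matSL (δ i) * congRep Q ℓ (σ i)) ∧
      ∀ i, g⁻¹ * δ i ∈ Gamma Q := by
  have hQ : ∀ i, ∃ (k : Option (ZMod ℓ)) (γ : SL(2, ℤ)),
      matSL g⁻¹ * congRep Q ℓ i * matSL g = matSL γ * congRep Q ℓ k := fun i =>
    exists_congRep_cover hℓQ _ (by
      rw [Matrix.det_mul, Matrix.det_mul, g⁻¹.det_coe, g.det_coe, congRep_det, one_mul, mul_one])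
  choose k γ hγ using hQ
  have hγ' : ∀ i, γ i ∈ Gamma Q := fun i => by
    have := congrArg (fun X => X.map (Int.castRingHom (ZMod Q))) (hγ i)
    simp only [Matrix.map_mul] at this
    rw [show (congRep Q ℓ i).map (Int.castRingHom (ZMod Q)) = 1 from congRep_map h1 i,
      show (congRep Q ℓ (k i)).map (Int.castRingHom (ZMod Q)) = 1 from congRep_map h1 _, mul_one,
      mul_one, ← Matrix.map_mul, ← matSL_mul, inv_mul_cancel] at this
    refine Subtype.ext ?_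
    simp only [Matrix.SpecialLinearGroup.map_apply_coe, RingHom.mapMatrix_apply]
    rw [← this, matSL_one, Matrix.map_one _ (map_zero _) (map_one _)]
    rfl
  have hinj : Function.Injective k := fun i i' h => by
    refine congRep_distinct hℓQ i i' (g * (γ i * (γ i')⁻¹) * g⁻¹) ?_
    have e1 := hγ i
    have e2 := hγ i'
    rw [← h] at e2
    have hg1 : matSL g * matSL g⁻¹ = 1 := by rw [← matSL_mul, mul_inv_cancel, matSL_one]
    calc congRep Q ℓ i = matSL g * (matSL g⁻¹ * congRep Q ℓ i * matSL g) * matSL g⁻¹ := by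
          simp only [Matrix.mul_assoc, hg1, Matrix.mul_one]
          rw [← Matrix.mul_assoc, hg1, Matrix.one_mul]
      _ = matSL (g * (γ i * (γ i')⁻¹) * g⁻¹) * congRep Q ℓ i' := by
          rw [e1, ← matSL_inv_mul_cancel (γ i') (congRep Q ℓ (k i)), ← e2]
          simp only [matSL_mul, Matrix.mul_assoc]
          rw [← matSL_mul g g⁻¹, mul_inv_cancel, matSL_one, Matrix.mul_one]
  refine ⟨Equiv.ofBijective k (Finite.injective_iff_bijective.1 hinj), fun i => g * γ i,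
    fun i => ?_, fun i => by rw [inv_mul_cancel_left]; exact hγ' i⟩
  rw [Equiv.ofBijective_apply, matSL_mul, Matrix.mul_assoc, ← hγ i]
  simp only [← Matrix.mul_assoc, ← matSL_mul, mul_inv_cancel, matSL_one, Matrix.one_mul]

theorem congRep_cofactor_unique (hℓQ : ¬ ℓ ∣ Q) {g : SL(2, ℤ)}
    {σ σ' : Equiv.Perm (Option (ZMod ℓ))} {δ δ' : Option (ZMod ℓ) → SL(2, ℤ)}
    (h : ∀ i, congRep Q ℓ i * matSL g = matSL (δ i) * congRep Q ℓ (σ i))
    (h' : ∀ i, congRep Q ℓ i * matSL g = matSL (δ' i) * congRep Q ℓ (σ' i)) : δ = δ' := by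
  funext i
  have hσ : σ i = σ' i := congRep_distinct hℓQ _ _ ((δ i)⁻¹ * δ' i) (by
    rw [matSL_mul, Matrix.mul_assoc, ← h', h, matSL_inv_mul_cancel])
  exact eq_of_matSL_mul (congRep_det_ne (σ i)) (by rw [← h, h', hσ])

theorem isFam_congRep (hℓQ : ¬ ℓ ∣ Q) (h1 : (ℓ : ZMod Q) = 1) (Δ : Subgroup SL(2, ℤ))
    (hQ : Gamma Q ≤ Δ) : IsFam Δ Δ (congRep Q ℓ) := by
  refine ⟨congRep_det_ne, fun γ hγ => ?_⟩
  obtain ⟨σ, δ, hδ, hδQ⟩ := exists_congRep_transfer hℓQ h1 γ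
  refine ⟨σ, fun i => ⟨δ i, ?_⟩, hδ⟩
  simpa using Δ.mul_mem hγ (hQ (hδQ i))

end FLTAgent.RT.Carayol
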