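import Fermat.Agent.RT.Carayol.CongFam
import Fermat.Agent.RT.Ihara.Bridge

/-!
# `T ℓ` by congruent representatives, and the degeneracy map `γ ↦ diag(q, 1) γ diag(q, 1)⁻¹`
-/

set_option autoImplicit false

noncomputable section

namespace FLTAgent.RT.Carayol

open LevelRaise CongruenceSubgroup
open scoped MatrixGroups

variable {N Q ℓ : ℕ} [NeZero N] [Fact ℓ.Prime] {R : Type*} [CommRing R] {A : Type*} [AddCommGroup A]
  [Module R A]

omit [NeZero N] in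
theorem congRep_apply_one_zero (i : Option (ZMod ℓ)) : congRep Q ℓ i 1 0 = 0 := by
  rcases i with _ | j <;> simp [congRep]

omit [NeZero N] in
theorem congRep_coprime (hℓN : ¬ ℓ ∣ N) (i : Option (ZMod ℓ)) :
    IsCoprime (congRep Q ℓ i 0 0) (N : ℤ) := by
  rcases i with _ | j
  · exact Nat.isCoprime_iff_coprime.mpr (((Fact.out : ℓ.Prime).coprime_iff_not_dvd).mpr hℓN)
  · exact isCoprime_one_left

/-- The congruent representatives have the classes of `T ℓ`. -/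
theorem exists_congRep_classes (hℓN : ¬ ℓ ∣ N) (hℓQ : ¬ ℓ ∣ Q) :
    ∃ (e : Option (ZMod ℓ) ≃ Option (ZMod ℓ)) (ε : Option (ZMod ℓ) → gammaH N trivChar),
      ∀ i, congRep Q ℓ (e i) = matSL (ε i : SL(2, ℤ)) * balRep N trivChar ℓ i := by
  have hT := opFam_T (χ := trivChar) (one_dvd N) (Fact.out : ℓ.Prime) hℓN
  have hcov : ∀ j, ∃ (i : Option (ZMod ℓ)) (δ : gammaH N trivChar),
      congRep Q ℓ j = matSL (δ : SL(2, ℤ)) * balRep N trivChar ℓ i := fun j =>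
    hT.cover _ (congRep_det j) (by rw [congRep_apply_one_zero]; exact dvd_zero _)
      (congRep_coprime hℓN j) (bal_trivChar _ (congRep_det_ne j))
  choose f δ hδ using hcov
  have hinj : Function.Injective f := fun i j h => congRep_distinct hℓQ i j
    ((δ i : SL(2, ℤ)) * (δ j : SL(2, ℤ))⁻¹) (by
      rw [matSL_mul, hδ j, Matrix.mul_assoc, matSL_inv_mul_cancel, hδ i, h])
  let e := (Equiv.ofBijective f (Finite.injective_iff_bijective.1 hinj)).symm
  refine ⟨e, fun i => δ (e i), fun i => ?_⟩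
  have h := hδ (e i)
  rwa [show f (e i) = i from Equiv.apply_symm_apply (Equiv.ofBijective f _) i] at h

theorem isFam_congRepN (hℓN : ¬ ℓ ∣ N) (hℓQ : ¬ ℓ ∣ Q) :
    IsFam (gammaH N trivChar) (gammaH N trivChar) (congRep Q ℓ) :=
  let ⟨e, ε, h⟩ := exists_congRep_classes hℓN hℓQ
  ((opFam_T (χ := trivChar) (one_dvd N) (Fact.out : ℓ.Prime) hℓN).isFam Fact.out).congr e ε h

theorem opT_eq_congRep (hℓ : ℓ.Prime) (hℓN : ¬ ℓ ∣ N) (hℓQ : ¬ ℓ ∣ Q) (φ : Coh N trivChar A) :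
    opT R A trivChar (one_dvd N) hℓ hℓN φ = famTransfer (isFam_congRepN hℓN hℓQ) φ := by
  obtain ⟨e, ε, h⟩ := exists_congRep_classes (N := N) (Q := Q) hℓN hℓQ
  rw [opT_apply]
  exact (famTransfer_congr _ _ e ε h φ).symm

omit [Fact ℓ.Prime] in
theorem gUp_mul_congRep (q : ℕ) (i : Option (ZMod ℓ)) :
    gUp q * congRep Q ℓ i = congRep (Q * q) ℓ i * gUp q := by
  rcases i with _ | j <;> ext r s <;> fin_cases r <;> fin_cases s <;>
    simp [congRep, Matrix.mul_apply, Fin.sum_univ_two, -ZMod.natCast_val] <;> ring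

section Degeneracy

variable (R) {L q : ℕ} [NeZero q]

omit [NeZero N] in
theorem isFam_gUp :
    IsFam (gammaH L trivChar) (gammaH (L * q) trivChar) (fun _ : Unit => gUp q) := by
  refine ⟨fun _ => det_gUp_pos.ne', fun γ hγ => ?_⟩
  obtain ⟨δ, hδ, e⟩ := (conjLE_gUp' L q).exists_eq γ (gammaH_le hγ)
  exact ⟨1, fun _ => ⟨δ, gamma0_le_triv L hδ⟩, fun _ => e⟩

/-- The degeneracy map `γ ↦ diag(q, 1) γ diag(q, 1)⁻¹`. -/
def conjB : Coh L trivChar A →ₗ[R] Coh (L * q) trivChar A :=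
  famTransferL R (isFam_gUp (L := L) (q := q))

omit [NeZero N] in
theorem conjB_apply_apply (φ : Coh L trivChar A) (γ : gammaH (L * q) trivChar) :
    conjB R φ (Additive.ofMul γ) = φ (Additive.ofMul
      ⟨((conjLE_gUp' L q).hom ⟨γ, gammaH_le γ.2⟩ : Gamma0 L),
        gamma0_le_triv L ((conjLE_gUp' L q).hom ⟨γ, gammaH_le γ.2⟩).2⟩) := by
  rw [conjB, famTransferL_apply, famTransfer_apply _ φ γ (σ := 1)
    (δ := fun _ => ⟨((conjLE_gUp' L q).hom ⟨γ, gammaH_le γ.2⟩ : Gamma0 L),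
        gamma0_le_triv L ((conjLE_gUp' L q).hom ⟨γ, gammaH_le γ.2⟩).2⟩)
    (fun _ => (conjLE_gUp' L q).spec ⟨γ, gammaH_le γ.2⟩), Fintype.sum_unique]

omit [NeZero N] in
theorem conjB_opT [NeZero L] (hℓ : ℓ.Prime) (hℓN : ¬ ℓ ∣ L * q) (φ : Coh L trivChar A) :
    opT R A trivChar (one_dvd (L * q)) hℓ hℓN (conjB R φ) =
      conjB R (opT R A trivChar (one_dvd L) hℓ (fun h => hℓN (h.trans (dvd_mul_right L q))) φ) := by
  have h1 : ¬ ℓ ∣ 1 := hℓ.not_dvd_one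
  have hq : ¬ ℓ ∣ 1 * q := fun h => hℓN (((one_mul q) ▸ h).trans (dvd_mul_left q L))
  rw [opT_eq_congRep hℓ hℓN h1, opT_eq_congRep hℓ (fun h => hℓN (h.trans (dvd_mul_right L q))) hq]
  show famTransfer (isFam_congRepN hℓN h1) (famTransfer (isFam_gUp (L := L) (q := q)) φ) =
    famTransfer (isFam_gUp (L := L) (q := q))
      (famTransfer (isFam_congRepN (fun h => hℓN (h.trans (dvd_mul_right L q))) hq) φ)
  refine famTransfer_comm _ _ _ _ (Equiv.prodComm _ _) (fun _ => 1) (fun x => ?_) φ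
  show gUp q * congRep 1 ℓ x.1 = matSL (1 : SL(2, ℤ)) * (congRep (1 * q) ℓ x.1 * gUp q)
  rw [matSL_one, Matrix.one_mul, gUp_mul_congRep]

end Degeneracy

/-- `γ ↦ diag(q, 1)⁻¹ γ diag(q, 1)`, from `upper0` to `Γ₀`. -/
def upVer (L q : ℕ) [NeZero q] (φ : Coh (L * q) trivChar A) : Additive (upper0 L q) →+ A :=
  (toG0 (L * q) φ).comp (MonoidHom.toAdditive (conjLE_gDown L q).hom)

omit [NeZero N] in
/-- Compatibility of `upVer` with `T ℓ`. -/
theorem famTransfer_upVer {L q : ℕ} [NeZero L] [NeZero q] (hℓN : ¬ ℓ ∣ L * q) (hℓQ : ¬ ℓ ∣ Q * q)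
    (h1 : (ℓ : ZMod (Q * q)) = 1) (hQ : Gamma (Q * q) ≤ upper0 L q) (φ : Coh (L * q) trivChar A)
    (γ : upper0 L q) :
    famTransfer (isFam_congRep hℓQ h1 (upper0 L q) hQ) (upVer L q φ) (Additive.ofMul γ) =
      upVer L q (opT R A trivChar (one_dvd (L * q)) Fact.out hℓN φ) (Additive.ofMul γ) := by
  have hQ' : ¬ ℓ ∣ Q := fun h => hℓQ (h.trans (dvd_mul_right Q q))
  rw [opT_eq_congRep Fact.out hℓN hQ']
  set g := (conjLE_gDown L q).hom γ with hg
  obtain ⟨σ, δ, h⟩ := (isFam_congRepN (Q := Q) hℓN hQ').exists_eq _ (gamma0_le_triv _ g.2)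
  have hup : gUp q * matSL (g : SL(2, ℤ)) = matSL (γ : SL(2, ℤ)) * gUp q := by
    refine mul_right_cancel_of_det_pos (det_gDown_pos (ℓ := q)) ?_
    rw [Matrix.mul_assoc, ← (conjLE_gDown L q).spec γ]
    have hud : gUp q * gDown q = (q : ℤ) • (1 : Matrix (Fin 2) (Fin 2) ℤ) := by
      ext r s
      fin_cases r <;> fin_cases s <;> simp [Matrix.mul_apply, Fin.sum_univ_two]
    rw [← Matrix.mul_assoc, hud, Matrix.mul_assoc, hud, smul_mul_assoc, Matrix.one_mul,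
      Matrix.mul_smul, Matrix.mul_one]
  have hd : ∀ i, ∃ d : upper0 L q, gUp q * matSL (δ i : SL(2, ℤ)) = matSL (d : SL(2, ℤ)) * gUp q ∧
      (conjLE_gDown L q).hom d = ⟨δ i, gammaH_le (δ i).2⟩ := fun i => by
    refine ⟨(conjLE_gUp L q).hom ⟨δ i, gammaH_le (δ i).2⟩,
      (conjLE_gUp L q).spec ⟨δ i, gammaH_le (δ i).2⟩, (conjLE_gDown L q).hom_eq ?_⟩
    refine mul_right_cancel_of_det_pos (det_gUp_pos (ℓ := q)) ?_
    rw [Matrix.mul_assoc, ← (conjLE_gUp L q).spec ⟨δ i, gammaH_le (δ i).2⟩]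
    have hdu : gDown q * gUp q = (q : ℤ) • (1 : Matrix (Fin 2) (Fin 2) ℤ) := by
      ext r s
      fin_cases r <;> fin_cases s <;> simp [Matrix.mul_apply, Fin.sum_univ_two]
    rw [← Matrix.mul_assoc, hdu, Matrix.mul_assoc, hdu, smul_mul_assoc, Matrix.one_mul,
      Matrix.mul_smul, Matrix.mul_one]
  choose d hd hdg using hd
  rw [famTransfer_apply _ (upVer L q φ) γ (σ := σ) (δ := d) (fun i => by
    refine mul_right_cancel_of_det_pos (det_gUp_pos (ℓ := q)) ?_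
    rw [Matrix.mul_assoc, ← hup, ← Matrix.mul_assoc, ← gUp_mul_congRep, Matrix.mul_assoc, h,
      ← Matrix.mul_assoc, hd, Matrix.mul_assoc, gUp_mul_congRep, ← Matrix.mul_assoc])]
  show _ = famTransfer (isFam_congRepN hℓN hQ') φ
    (Additive.ofMul ⟨(g : SL(2, ℤ)), gamma0_le_triv _ g.2⟩)
  rw [famTransfer_apply _ φ ⟨(g : SL(2, ℤ)), gamma0_le_triv _ g.2⟩ h]
  refine Finset.sum_congr rfl fun i _ => ?_
  show φ (Additive.ofMul ⟨((conjLE_gDown L q).hom (d i) : SL(2, ℤ)), _⟩) = _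
  congr 2
  exact Subtype.ext (congrArg (fun z : Gamma0 (L * q) => (z : SL(2, ℤ))) (hdg i))

end FLTAgent.RT.Carayol
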