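import Fermat.Agent.RT.Carayol.Potential
import Fermat.Agent.RT.Carayol.CongFam
import Fermat.Agent.RT.Coh.Cocycles

/-!
# Balanced classes are old up to an Eisenstein operator

`Δ ≤ Γ'` and `w⁻¹ Δ w ≤ Γ'`. If the cocycle of `ψ` kills, on a principal congruence subgroup, the
weights with zero sums along the fibres of the two maps `Cos Δ → Cos Γ'`, then
`T ℓ ψ - (ℓ + 1) ψ` comes from `Γ'` by the two maps, for `ℓ ≡ 1` modulo the level.
-/

set_option autoImplicit false

noncomputable section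

namespace FLTAgent.RT.Carayol

open LevelRaise CongruenceSubgroup
open scoped MatrixGroups
open ModularGroup

variable {Δ Γ' : Subgroup SL(2, ℤ)} (hle : Δ ≤ Γ') (w : SL(2, ℤ))
  (hw : ∀ δ ∈ Δ, w⁻¹ * δ * w ∈ Γ') {A : Type*} [AddCommGroup A]

/-- The twisted projection `g Δ ↦ g w Γ'`. -/
def twistMap : Cos Δ → Cos Γ' :=
  Quotient.lift (fun g : SL(2, ℤ) => ((g * w : SL(2, ℤ)) : Cos Γ')) fun a b hab => by
    refine QuotientGroup.eq.mpr ?_
    have h : a⁻¹ * b ∈ Δ := QuotientGroup.leftRel_apply.mp hab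
    simpa [mul_assoc] using hw _ h

theorem twistMap_smul (g : SL(2, ℤ)) (x : Cos Δ) :
    twistMap w hw (g • x) = g • twistMap w hw x := by
  induction x using QuotientGroup.induction_on with
  | H a => exact congrArg (fun z : SL(2, ℤ) => (z : Cos Γ')) (mul_assoc g a w)

theorem twistMap_base : twistMap w hw (cosBase Δ) = w • cosBase Γ' :=
  congrArg (fun z : SL(2, ℤ) => (z : Cos Γ')) (by simp)

theorem smul_eq_of_mem_gamma {Q : ℕ} (hQ : Gamma Q ≤ Δ) {k : SL(2, ℤ)} (hk : k ∈ Gamma Q)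
    (x : Cos Δ) : k • x = x := by
  induction x using QuotientGroup.induction_on with
  | H a =>
    refine QuotientGroup.eq.mpr (hQ ?_)
    simpa [mul_assoc] using (Gamma_normal Q).conj_mem _ (inv_mem hk) a⁻¹

/-- Elements whose cocycle values lift along the two maps, with the relations at `S` and `S T`. -/
theorem exists_lift_cocycle {E Y : Type*} [MulAction SL(2, ℤ) E] [MulAction SL(2, ℤ) Y]
    [Finite Y] {p₁ p₂ : E → Y} (hp₁ : ∀ (g : SL(2, ℤ)) x, p₁ (g • x) = g • p₁ x)
    (hp₂ : ∀ (g : SL(2, ℤ)) x, p₂ (g • x) = g • p₂ x) 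
    (hnY : ∀ y : Y, (-1 : SL(2, ℤ)) • y = y) (h2 : Function.Bijective fun a : A => 2 • a)
    (h3 : Function.Bijective (fun a : A => 3 • a) ∨
      ∃ sel : Y → Prop, (∀ y,
        sel y ∧ ¬ sel ((S * T) • y) ∧ ¬ sel ((S * T) • (S * T) • y) ∨
        ¬ sel y ∧ sel ((S * T) • y) ∧ ¬ sel ((S * T) • (S * T) • y) ∨
        ¬ sel y ∧ ¬ sel ((S * T) • y) ∧ sel ((S * T) • (S * T) • y)) ∧
        ∀ x : E, sel (p₁ x) ↔ sel (p₂ x))
    {b : SL(2, ℤ) → E → A} (hb : IsCocycle b) (hb1 : ∀ x, b (-1) x = 0)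
    (hK : ∀ g, ∃ f f' : Y → A, ∀ x, b g x = f (p₁ x) + f' (p₂ x)) :
    ∃ a₁ a₂ : SL(2, ℤ) → Y → A, IsCocycle a₁ ∧ IsCocycle a₂ ∧
      ∀ g x, b g x = a₁ g (p₁ x) + a₂ g (p₂ x) := by
  classical
  have hS2 : ∀ y : Y, S • S • y = y := fun y => by rw [← mul_smul, ← pow_two, S_sq_eq, hnY]
  have hU3 : ∀ y : Y, (S * T) • (S * T) • (S * T) • y = y := fun y => by
    rw [← mul_smul, ← mul_smul, mul_assoc (S * T), ← pow_two, ← pow_succ', ST_cube_eq, hnY]
  let half : A → A := Function.surjInv h2.2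
  have hhalf : ∀ a, half a + half a = a := fun a => by
    rw [← two_nsmul]; exact Function.surjInv_eq h2.2 a
  have hhalf_eq : ∀ {a c : A}, c + c = a + a → c = a := fun {a c} h => h2.1 (by
    show 2 • c = 2 • a
    rw [two_nsmul, two_nsmul, h])
  -- at `S`
  obtain ⟨f, f', hf⟩ := hK S
  set e₁ : Y → A := fun y => half (f y - f (S • y))
  set e₂ : Y → A := fun y => half (f' y - f' (S • y))
  have he : ∀ (F : Y → A) y, half (F (S • y) - F (S • S • y)) + half (F y - F (S • y)) = 0 :=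
    fun F y => hhalf_eq (by
      rw [add_add_add_comm, hhalf, hhalf, hS2]
      abel)
  have heS : ∀ x, b S x = e₁ (p₁ x) + e₂ (p₂ x) := fun x => hhalf_eq (by
    show _ = half (f (p₁ x) - f (S • p₁ x)) + half (f' (p₂ x) - f' (S • p₂ x))
      + (half (f (p₁ x) - f (S • p₁ x)) + half (f' (p₂ x) - f' (S • p₂ x)))
    rw [add_add_add_comm, hhalf, hhalf, ← hp₁, ← hp₂]
    have h1 := cocycle_S_rel hb hb1 x
    rw [show b S x + b S x = b S x - b S (S • x) + (b S (S • x) + b S x) by abel, h1, hf, hf]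
    abel)
  -- at `S T`
  obtain ⟨g, g', hg⟩ := hK (S * T)
  set N : (Y → A) → Y → A := fun F y =>
    F ((S * T) • (S * T) • y) + F ((S * T) • y) + F y with hN
  have hNrel : ∀ x, N g (p₁ x) + N g' (p₂ x) = 0 := fun x => by
    rw [← cocycle_ST_rel hb hb1 x, hg, hg, hg]
    simp only [hN, hp₁, hp₂]
    abel
  have hNU : ∀ F y, N F ((S * T) • y) = N F y := fun F y => by
    simp only [hN, hU3]; abel
  suffices hU : ∃ r r' : Y → A, (∀ y, N r y = N g y) ∧ (∀ y, N r' y = N g' y) ∧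
      ∀ x, r (p₁ x) + r' (p₂ x) = 0 by
    obtain ⟨r, r', hr, hr', hrr⟩ := hU
    obtain ⟨a₁, ha₁, ha₁S, ha₁U, -⟩ := exists_cocycle_of_values hnY e₁ (fun y => g y - r y)
      (he f) fun y => by
        have := hr y
        simp only [hN] at this
        rw [← sub_eq_zero] at this
        rw [← neg_eq_zero, ← this]; abel
    obtain ⟨a₂, ha₂, ha₂S, ha₂U, -⟩ := exists_cocycle_of_values hnY e₂ (fun y => g' y - r' y)
      (he f') fun y => by
        have := hr' y
        simp only [hN] at this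
        rw [← sub_eq_zero] at this
        rw [← neg_eq_zero, ← this]; abel
    refine ⟨a₁, a₂, ha₁, ha₂, fun g₀ x => ?_⟩
    have hc : IsCocycle fun (k : SL(2, ℤ)) (z : E) => a₁ k (p₁ z) + a₂ k (p₂ z) := fun k k' z => by
      simp only [ha₁ _ _ _, ha₂ _ _ _, hp₁, hp₂]; abel
    exact congrFun (congrFun (cocycle_eq_of_values hb hc (funext fun z => by
      show b S z = a₁ S _ + a₂ S _
      rw [ha₁S, ha₂S, heS]) (funext fun z => by
      show b (S * T) z = a₁ (S * T) _ + a₂ (S * T) _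
      rw [ha₁U, ha₂U, hg]; dsimp only
      rw [eq_neg_of_add_eq_zero_left (hrr z)]; abel)) g₀) x
  rcases h3 with h3 | ⟨sel, hsel, hselp⟩
  · let third : A → A := Function.surjInv h3.2
    have hthird : ∀ a, third a + third a + third a = a := fun a => by
      conv_rhs => rw [← Function.surjInv_eq h3.2 a]
      show _ = 3 • third a
      abel
    refine ⟨fun y => third (N g y), fun y => third (N g' y), fun y => ?_, fun y => ?_, fun x => ?_⟩
    · show third (N g _) + third (N g _) + third (N g y) = _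
      rw [hNU, hNU, hthird]
    · show third (N g' _) + third (N g' _) + third (N g' y) = _
      rw [hNU, hNU, hthird]
    · refine h3.1 ?_
      show 3 • (third (N g (p₁ x)) + third (N g' (p₂ x))) = 3 • (0 : A)
      have hs : ∀ a : A, 3 • third a = a := Function.surjInv_eq h3.2
      rw [smul_zero, smul_add, hs, hs, hNrel]
  · let r : (Y → A) → Y → A := fun F y => if sel y then N F y else 0
    have key : ∀ F y, N (r F) y = N F y := fun F y => by
      show r F _ + r F _ + r F y = _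
      rcases hsel y with ⟨h, h', h''⟩ | ⟨h, h', h''⟩ | ⟨h, h', h''⟩ <;> simp [r, h, h', h'', hNU]
    refine ⟨r g, r g', key g, key g', fun x => ?_⟩
    simp only [r, hselp x]
    split_ifs
    · exact hNrel x
    · exact add_zero 0

include hle hw in
/-- `T ℓ ψ - (ℓ + 1) ψ` comes from `Γ'`. -/
theorem exists_old_of_balanced [Δ.FiniteIndex] [Fintype (Cos Δ)] [DecidableEq (Cos Γ')]
    (hneg : (-1 : SL(2, ℤ)) ∈ Δ) {Q : ℕ} (hQ : Gamma Q ≤ Δ)
    (h2 : Function.Bijective fun a : A => 2 • a)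
    (h3 : Function.Bijective (fun a : A => 3 • a) ∨
      ∃ Γ'' : Subgroup SL(2, ℤ), Γ' ≤ Γ'' ∧ w ∈ Γ'' ∧ ∀ x : Cos Γ'', (S * T) • x ≠ x)
    (ψ : Additive Δ →+ A) (hψ1 : ψ (Additive.ofMul ⟨-1, hneg⟩) = 0)
    (hbal : ∀ k ∈ Gamma Q, ∀ c : Cos Δ → ℤ,
      (∀ y, ∑ x ∈ Finset.univ.filter (fun x => cosMap hle x = y), c x = 0) →
      (∀ y, ∑ x ∈ Finset.univ.filter (fun x => twistMap w hw x = y), c x = 0) →
      ∑ x, c x • homCocycle ψ k x = 0)
    {ℓ : ℕ} [Fact ℓ.Prime] (hℓQ : ¬ ℓ ∣ Q) (h1 : (ℓ : ZMod Q) = 1) :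
    ∃ α β : Additive Γ' →+ A, ∀ γ : Δ,
      famTransfer (isFam_congRep hℓQ h1 Δ hQ) ψ (Additive.ofMul γ) - (ℓ + 1) • ψ (Additive.ofMul γ)
        = α (Additive.ofMul ⟨γ, hle γ.2⟩) + β (Additive.ofMul ⟨_, hw γ γ.2⟩) := by
  classical
  have : Γ'.FiniteIndex := Subgroup.finiteIndex_of_le hle
  choose σ δ hδ hδQ using fun g : SL(2, ℤ) => exists_congRep_transfer hℓQ h1 g
  set a := homCocycle ψ with ha_def
  have ha : IsCocycle a := isCocycle_homCocycle ψ
  have hn' := fun y : Cos Γ' => neg_one_smul_cos (hle hneg) y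
  set b : SL(2, ℤ) → Cos Δ → A := fun g x => ∑ i, a (δ g i) x - (ℓ + 1) • a g x with hb_def
  have hcard : Fintype.card (Option (ZMod ℓ)) = ℓ + 1 := by simp
  have hstep : ∀ g i x, δ g i • x = g • x := fun g i x => by
    have h := smul_eq_of_mem_gamma hQ (hδQ g i) x
    rw [mul_smul] at h
    conv_rhs => rw [← h, smul_inv_smul]
  have hbc : IsCocycle b := fun g h x => by
    have e := congRep_cofactor_unique hℓQ (hδ (g * h)) (σ' := (σ g).trans (σ h))
      (δ' := fun i => δ g i * δ h (σ g i)) fun i => by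
        rw [matSL_mul, ← Matrix.mul_assoc, hδ, Matrix.mul_assoc, hδ, ← Matrix.mul_assoc,
          ← matSL_mul]
        rfl
    simp only [hb_def, e, ha _ _ x, hstep, Finset.sum_add_distrib, smul_add]
    rw [Equiv.sum_comp (σ g) (fun i => a (δ h i) x)]
    abel
  have hb1 : ∀ x, b (-1) x = 0 := fun x => by
    have e := congRep_cofactor_unique hℓQ (hδ (-1)) (σ' := 1) (δ' := fun _ => -1) fun i => by
      simp [matSL]
    simp [hb_def, e, ha_def, homCocycle_neg_one hneg hψ1]
  have hK : ∀ g, ∃ f f' : Cos Γ' → A,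
      ∀ x, b g x = f (cosMap hle x) + f' (twistMap w hw x) := fun g => by
    have hi : ∀ i, ∃ f f' : Cos Γ' → A,
        ∀ x, a (g⁻¹ * δ g i) x = f (cosMap hle x) + f' (twistMap w hw x) := fun i =>
      exists_potential _ _ _ (hbal _ (hδQ g i))
    choose f f' hf using hi
    refine ⟨∑ i, f i, ∑ i, f' i, fun x => ?_⟩
    have e : ∀ i, a (δ g i) x = a g x + a (g⁻¹ * δ g i) x := fun i => by
      conv_lhs => rw [← mul_inv_cancel_left g (δ g i)]
      rw [ha, smul_eq_of_mem_gamma hQ (hδQ g i)]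
    simp only [hb_def, e, hf, Finset.sum_apply, Finset.sum_add_distrib, Finset.sum_const,
      Finset.card_univ, hcard]
    abel
  obtain ⟨a₁, a₂, ha₁, ha₂, hdec⟩ := exists_lift_cocycle (p₁ := cosMap hle) (p₂ := twistMap w hw)
    (cosMap_smul hle) (twistMap_smul w hw) hn' h2
    (h3.imp_right fun ⟨Γ'', hle'', hwm, hfree⟩ => by
      have : Γ''.FiniteIndex := Subgroup.finiteIndex_of_le hle''
      let ι : Cos Γ'' → ℕ := fun z => (Finite.equivFin (Cos Γ'') z : ℕ)
      have hι : Function.Injective ι := Fin.val_injective.comp (Equiv.injective _)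
      have hU3 : ∀ z : Cos Γ'', (S * T) • (S * T) • (S * T) • z = z := fun z => by
        rw [← mul_smul, ← mul_smul, mul_assoc (S * T), ← pow_two, ← pow_succ', ST_cube_eq,
          neg_one_smul_cos (hle'' (hle hneg))]
      refine ⟨fun y => ι (cosMap hle'' y) < ι ((S * T) • cosMap hle'' y) ∧
        ι (cosMap hle'' y) < ι ((S * T) • (S * T) • cosMap hle'' y), fun y => ?_, fun x => ?_⟩
      · simp only [cosMap_smul, hU3]
        have h0 := hfree (cosMap hle'' y)
        set z := cosMap hle'' y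
        have d01 : ι z ≠ ι ((S * T) • z) := fun h => h0 (hι h).symm
        have d12 : ι ((S * T) • z) ≠ ι ((S * T) • (S * T) • z) := fun h =>
          h0 ((MulAction.injective (S * T : SL(2, ℤ))) (hι h)).symm
        have d02 : ι z ≠ ι ((S * T) • (S * T) • z) := fun h => h0 (by
          have := congrArg ((S * T) • ·) (hι h)
          simp only [hU3] at this
          exact this)
        omega
      · have hp : cosMap hle'' (cosMap hle x) = cosMap hle'' (twistMap w hw x) := by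
          induction x using QuotientGroup.induction_on with
          | H c => exact QuotientGroup.eq.mpr (by simpa using hwm)
        simp only [hp]) hbc hb1 hK
  refine ⟨baseHom a₁ ha₁, baseHom a₂ ha₂, fun γ => ?_⟩
  have hδΔ : ∀ i, δ (γ : SL(2, ℤ)) i ∈ Δ := fun i => by
    simpa using Δ.mul_mem γ.2 (hQ (hδQ γ i))
  have h := hdec γ (cosBase Δ)
  rw [hb_def, cosMap_base, twistMap_base] at h
  simp only [ha_def] at h
  rw [Finset.sum_congr rfl (g := fun i => ψ (Additive.ofMul ⟨_, hδΔ i⟩))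
      fun i _ => homCocycle_base ψ ⟨_, hδΔ i⟩, homCocycle_base ψ γ] at h
  rw [famTransfer_apply _ ψ γ (σ := σ γ) (δ := fun i => ⟨_, hδΔ i⟩) (hδ γ), h, baseHom_apply,
    baseHom_apply]
  congr 1
  have e1 := ha₂ (γ : SL(2, ℤ)) w (cosBase Γ')
  have e2 := ha₂ w (w⁻¹ * γ * w) (cosBase Γ')
  rw [show w * (w⁻¹ * (γ : SL(2, ℤ)) * w) = γ * w by group,
    smul_base_of_mem (hw γ γ.2), e1] at e2
  rw [add_comm] at e2
  exact add_left_cancel e2

end FLTAgent.RT.Carayol
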