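import Mathlib.Algebra.BigOperators.Group.Finset.Basic
import Mathlib.Algebra.Module.BigOperators
import Mathlib.Algebra.BigOperators.Pi
import Mathlib.Data.Fintype.BigOperators
import Mathlib.Tactic.Abel

/-!
# Potentials on a finite bipartite graph

A function on the edges orthogonal to every cycle is the sum of functions of the two ends.
-/

set_option autoImplicit false

noncomputable section

namespace FLTAgent.RT.Carayol

variable {E U V A : Type*} [Fintype E] [AddCommGroup A]

/-- If `φ` kills the weights with zero sums on the fibres of `s` and of `t`, it is the sum of a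
function of `s` and a function of `t`. -/
theorem exists_potential [DecidableEq U] [DecidableEq V] (s : E → U) (t : E → V) (φ : E → A)
    (h : ∀ c : E → ℤ, (∀ u, ∑ e ∈ Finset.univ.filter (fun e => s e = u), c e = 0) →
      (∀ v, ∑ e ∈ Finset.univ.filter (fun e => t e = v), c e = 0) → ∑ e, c e • φ e = 0) :
    ∃ (f : U → A) (g : V → A), ∀ e, φ e = f (s e) + g (t e) := by
  classical
  let bd : (E → ℤ) →+ (U ⊕ V → ℤ) := AddMonoidHom.mk'
    (fun c => Sum.elim (fun u => ∑ e ∈ Finset.univ.filter (fun e => s e = u), c e)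
      (fun v => -∑ e ∈ Finset.univ.filter (fun e => t e = v), c e))
    (fun c d => funext fun w => by
      rcases w with u | v <;> simp [Finset.sum_add_distrib] <;> abel)
  let pair : (E → ℤ) →+ A := AddMonoidHom.mk' (fun c => ∑ e, c e • φ e)
    (fun c d => by simp [add_smul, Finset.sum_add_distrib])
  have hker : ∀ c, bd c = 0 → pair c = 0 := fun c hc => h c
    (fun u => congrFun hc (Sum.inl u)) (fun v => neg_eq_zero.1 (congrFun hc (Sum.inr v)))
  have hedge : ∀ e, bd (Pi.single e 1)
      = Pi.single (Sum.inl (s e)) 1 - Pi.single (Sum.inr (t e)) 1 := fun e => funext fun w => by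
    rcases w with u | v
    · simp [bd, Pi.single_apply, eq_comm]
    · simp [bd, Pi.single_apply, eq_comm]
  let Conn : Setoid (U ⊕ V) :=
    { r := fun a b => ∃ c, bd c = Pi.single a 1 - Pi.single b 1
      iseqv :=
        { refl := fun a => ⟨0, by simp⟩
          symm := fun ⟨c, hc⟩ => ⟨-c, by rw [map_neg, hc, neg_sub]⟩
          trans := fun ⟨c, hc⟩ ⟨d, hd⟩ => ⟨c + d, by rw [map_add, hc, hd, sub_add_sub_cancel]⟩ } }
  let rep : U ⊕ V → U ⊕ V := fun a => (Quotient.mk Conn a).out
  have hx : ∀ a, ∃ c, bd c = Pi.single a 1 - Pi.single (rep a) 1 := fun a =>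
    Conn.symm' (Quotient.mk_out (s := Conn) a)
  choose x hx using hx
  refine ⟨fun u => pair (x (Sum.inl u)), fun v => -pair (x (Sum.inr v)), fun e => ?_⟩
  have hrep : rep (Sum.inl (s e)) = rep (Sum.inr (t e)) :=
    congrArg Quotient.out (Quotient.sound (s := Conn) ⟨Pi.single e 1, hedge e⟩)
  have hz := hker (x (Sum.inl (s e)) - x (Sum.inr (t e)) - Pi.single e 1) (by
    rw [map_sub, map_sub, hx, hx, hedge, hrep]; abel)
  rw [map_sub, map_sub, sub_eq_zero, show pair (Pi.single e 1) = φ e by
    simp [pair, Pi.single_apply, Finset.sum_ite_eq', ite_smul]] at hz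
  rw [← sub_eq_add_neg, hz]

end FLTAgent.RT.Carayol
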