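import Fermat.Agent.RT.Irr.Main
import Fermat.Agent.RT.Coh.NonEisRes
import Fermat.Agent.RT.Ihara.Bridge
import Fermat.Agent.JTors.Model
import Fermat.Agent.LevelLower.Endgame.Dictionary
import Fermat.Agent.GalRep.Specializations
import Fermat.Agent.GalRep.Dense
import Fermat.Agent.LevelRaise.AlgLemmas
import Fermat.Agent.Quick.HeckeEigenform
import Fermat.Agent.IntegralStructure.HeckeFinite
import Mathlib.GroupTheory.PGroup

/-!
# The torsion point of a residual system and its class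

Residual modularity of `W` at level `L` gives a nonzero `p`-torsion point of `J₀(L)` with the
eigenvalues `a ℓ (W)`, fixed by inertia at a prime `q ≠ p` if `W` is semistable, and a class in
`Coh L trivChar (ZMod p)` with these eigenvalues.  An irreducible `W[p]` is not Eisenstein.
-/

set_option autoImplicit false
set_option linter.style.haveILetI false

noncomputable section

namespace FLTAgent.RT.Carayol

open Polynomial ModularCurve AlgebraicCurve WeierstrassCurve CongruenceSubgroup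
open FLTAgent.RTIrr FLTAgent.LevelDrop
open scoped MatrixGroups

local notation "Qbar" => AlgebraicClosure ℚ
local notation "Γℚ" => AlgebraicClosure ℚ ≃ₐ[ℚ] AlgebraicClosure ℚ

theorem nsmul_eq_of_cast {J : Type*} [AddCommGroup J] {p a b : ℕ} {x : J} (hx : p • x = 0)
    (h : (a : ZMod p) = (b : ZMod p)) : a • x = b • x := by
  rw [ZMod.natCast_eq_natCast_iff'] at h
  rw [← Nat.mod_add_div a p, ← Nat.mod_add_div b p, h, add_nsmul, add_nsmul, mul_nsmul', mul_nsmul',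
    smul_comm p (a / p) x, smul_comm p (b / p) x, hx, smul_zero, smul_zero]

variable {W : WeierstrassCurve ℤ} {p : ℕ} [Fact p.Prime]

theorem frobTrace_cast (hΔ : W.Δ ≠ 0) {ℓ : ℕ} (hℓ : ℓ.Prime) (hgood : W.IsGoodPrimeFor ℓ)
    (hℓp : ℓ ≠ p) :
    (LevelLower.Endgame.frobTrace hΔ p ℓ : ZMod p) = (W.apOfModel ℓ : ZMod p) := by
  have hch := (Frobenius.exists_liesOverPrime_isFrobeniusAt hℓ).choose_spec.choose_spec
  rw [LevelLower.Endgame.frobTrace, dif_pos hℓ, ZMod.natCast_zmod_val]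
  exact (LevelLower.Endgame.torsMat_frobenius hΔ p hℓ hgood hℓp _ hch.1 _ hch.2).1

variable {L : ℕ} [NeZero L]

/-- The eigen subgroup of the system of `W` in the `p`-torsion of `J₀(L)`. -/
def torsEigen (W : WeierstrassCurve ℤ) (p L : ℕ) [NeZero L] : Set (JZero L) :=
  {x | p • x = 0 ∧ ∀ (ℓ : ℕ) (hℓ : ℓ.Prime), W.IsGoodPrimeFor ℓ → ¬ ℓ ∣ L * p →
    heckeOperatorBar L ⟨ℓ, hℓ⟩ x = ((W.apOfModel ℓ : ZMod p)).val • x}

/-- Residual modularity at level `L` gives an eigen torsion point. -/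
theorem exists_torsEigen (hΔ : W.Δ ≠ 0) (hres : W.IsResiduallyModularOfLevel p L) :
    ∃ x ∈ torsEigen W p L, x ≠ 0 := by
  obtain ⟨x, hx, hpx, hT⟩ :=
    LevelLower.Endgame.exists_eigenTorsion_of_isResiduallyModularOfLevel hΔ hres
  refine ⟨x, ⟨hpx, fun ℓ hℓ hgood hℓLp => ?_⟩, hx⟩
  have hℓp : ℓ ≠ p := fun e => hℓLp (e ▸ dvd_mul_left p L)
  rw [hT ℓ hℓ (fun h => hℓLp (h.mul_right p)) hℓp]
  exact nsmul_eq_of_cast hpx ((frobTrace_cast hΔ hℓ hgood hℓp).trans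
    (ZMod.natCast_zmod_val _).symm)

theorem trace_det_torsMat_frobenius (hΔ : W.Δ ≠ 0) {ℓ : ℕ} (hℓ : ℓ.Prime)
    (hgood : W.IsGoodPrimeFor ℓ) (hℓp : ℓ ≠ p) (A : ValuationSubring Qbar)
    (hA : A.LiesOverPrime ℓ) (σ : Γℚ) (hσ : A.IsFrobeniusAt σ ℓ) :
    (torsMat hΔ p σ).trace = (W.apOfModel ℓ : ZMod p) ∧ (torsMat hΔ p σ).det = (ℓ : ZMod p) := by
  have h := charpoly_torsRep_frobenius hΔ p hℓ hgood hℓp A hA σ hσ
  rw [← LinearMap.charpoly_toMatrix _ (torsBasis hΔ p), ← torsMat_eq] at h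
  constructor
  · rw [Matrix.trace_eq_neg_charpoly_coeff, h]
    simp [coeff_X_pow, coeff_C]
  · rw [Matrix.det_eq_sign_charpoly_coeff, h]
    simp [coeff_X_pow, coeff_C]

/-- The torsion points of the system are killed by the characteristic polynomials of `W[p]`. -/
theorem torsEigen_relation (hΔ : W.Δ ≠ 0) {x : JZero L} (hx : x ∈ torsEigen W p L) (g : Γℚ) :
    g • g • x + (torsMat hΔ p g).det.val • x = (torsMat hΔ p g).trace.val • g • x := by
  classical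
  obtain ⟨L₁, hL₁, h₁⟩ := GalRep.isFiniteLevel_jZero L x
  obtain ⟨L₂, hL₂, h₂⟩ := GalRep.isFiniteLevel_jZero L (g • x)
  obtain ⟨L₃, hL₃, h₃⟩ := (torsRep hΔ p).factorsThroughFiniteLevel
  obtain ⟨ℓ, hℓ, hℓS, A, hA, σ, hσ, hag⟩ := GalRep.frobeniusDense (L₁ ⊔ L₂ ⊔ L₃) inferInstance g
    ((L * p).primeFactors ∪ W.Δ.natAbs.primeFactors)
  simp only [Finset.mem_union, Nat.mem_primeFactors, not_or] at hℓS
  have hℓLp : ¬ ℓ ∣ L * p := fun h =>
    hℓS.1 ⟨hℓ, h, mul_ne_zero (NeZero.ne L) (Fact.out : p.Prime).ne_zero⟩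
  have hgood : W.IsGoodPrimeFor ℓ := fun h =>
    hℓS.2 ⟨hℓ, Int.natCast_dvd.1 h, Int.natAbs_ne_zero.2 hΔ⟩
  have hfix := (GalRep.fixing_of_agree hag).1
  have e1 : σ • x = g • x := by
    conv_lhs => rw [show σ = g * (g⁻¹ * σ) by group]
    rw [mul_smul, h₁ _ fun a ha => hfix a (le_sup_left (a := L₁ ⊔ L₂) (le_sup_left (a := L₁) ha))]
  have e2 : σ • g • x = g • g • x := by
    conv_lhs => rw [show σ = g * (g⁻¹ * σ) by group]
    rw [mul_smul, h₂ _ fun a ha => hfix a (le_sup_left (a := L₁ ⊔ L₂) (le_sup_right (a := L₁) ha))]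
  have e3 : torsMat hΔ p σ = torsMat hΔ p g := by
    conv_lhs => rw [show σ = g * (g⁻¹ * σ) by group]
    rw [map_mul, torsMat_eq hΔ p (g⁻¹ * σ),
      h₃ _ (fun a ha => hfix a (le_sup_right (a := L₁ ⊔ L₂) ha)), LinearMap.toMatrix_one, mul_one]
  have hℓp : ℓ ≠ p := fun e => hℓLp (e ▸ dvd_mul_left p L)
  obtain ⟨ht, hd⟩ := trace_det_torsMat_frobenius (p := p) hΔ hℓ hgood hℓp A hA σ hσ
  rw [e3] at ht hd
  have hrel := (GalRep.galoisFacts GalRep.specializationsExist L p).frobenius ℓ hℓ hℓLp A hA σ hσ x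
    ⟨1, by rw [pow_one]; exact hx.1⟩
  have hgx : p • (g • x) = 0 := by rw [← GalRep.smul_nsmul_jZero, hx.1, GalRep.smul_zero_jZero]
  rw [(GalRep.galoisFacts GalRep.specializationsExist L p).smul_hecke ⟨ℓ, hℓ⟩ σ x,
    hx.2 ℓ hℓ hgood hℓLp, GalRep.smul_nsmul_jZero, e1, e2, sub_add_eq_add_sub, sub_eq_zero,
    ← ht] at hrel
  rw [← hrel]
  exact congrArg (g • g • x + ·) (nsmul_eq_of_cast hx.1 (by rw [ZMod.natCast_zmod_val, hd]))

/-- Inertia at `q ≠ p` fixes a nonzero point of the system. -/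
theorem exists_torsEigen_fixed (hΔ : W.Δ ≠ 0) (hsemi : W.IsSemistableModel) {q : ℕ} (hq : q.Prime)
    (hqp : q ≠ p) {A : ValuationSubring Qbar} (hA : A.LiesOverPrime q)
    (hres : W.IsResiduallyModularOfLevel p L) :
    ∃ x ∈ torsEigen W p L, x ≠ 0 ∧ ∀ σ ∈ A.inertiaSubgroupIn ℚ, σ • x = x := by
  classical
  obtain ⟨x₀, hx₀, hx₀0⟩ := exists_torsEigen hΔ hres
  have hstab : ∀ (g : Γℚ), ∀ x ∈ torsEigen W p L, g • x ∈ torsEigen W p L := fun g x hx =>
    ⟨by rw [← GalRep.smul_nsmul_jZero, hx.1, GalRep.smul_zero_jZero], fun ℓ hℓ hgood hℓLp => by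
      rw [(GalRep.galoisFacts GalRep.specializationsExist L p).smul_hecke ⟨ℓ, hℓ⟩ g x,
        hx.2 ℓ hℓ hgood hℓLp, GalRep.smul_nsmul_jZero]⟩
  let V : AddSubgroup (JZero L) :=
    { carrier := torsEigen W p L
      zero_mem' := ⟨smul_zero _, fun ℓ hℓ _ _ => by rw [map_zero, smul_zero]⟩
      add_mem' := fun {a b} ha hb => ⟨by rw [nsmul_add, ha.1, hb.1, add_zero],
        fun ℓ hℓ hg hd => by rw [map_add, ha.2 ℓ hℓ hg hd, hb.2 ℓ hℓ hg hd, nsmul_add]⟩
      neg_mem' := fun {a} ha => ⟨by rw [neg_nsmul, ha.1, neg_zero],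
        fun ℓ hℓ hg hd => by rw [map_neg, ha.2 ℓ hℓ hg hd, neg_nsmul]⟩ }
  haveI : Finite V := ((JTors.finite_jZero_torsion L (Fact.out : p.Prime).ne_zero).subset
    fun x hx => hx.1).to_subtype
  let I := A.inertiaSubgroupIn ℚ
  let act : I →* Equiv.Perm V :=
    { toFun := fun σ =>
        { toFun := fun v => ⟨(σ : Γℚ) • (v : JZero L), hstab _ _ v.2⟩
          invFun := fun v => ⟨((σ : Γℚ))⁻¹ • (v : JZero L), hstab _ _ v.2⟩
          left_inv := fun v => Subtype.ext (inv_smul_smul _ _)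
          right_inv := fun v => Subtype.ext (smul_inv_smul _ _) }
      map_one' := Equiv.ext fun v => Subtype.ext (one_smul _ _)
      map_mul' := fun σ τ => Equiv.ext fun v => Subtype.ext (mul_smul _ _ _) }
  have hpow : ∀ σ : I, act σ ^ p = 1 := fun σ => Equiv.ext fun v => by
    obtain ⟨ht, hd⟩ := unipotent_inertia_ne hΔ p hsemi hq hqp hA σ.2
    have hrel := torsEigen_relation hΔ v.2 (σ : Γℚ)
    have hσv : p • ((σ : Γℚ) • (v : JZero L)) = 0 := (hstab _ _ v.2).1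
    rw [ht, hd, nsmul_eq_of_cast v.2.1 (b := 1) (by rw [ZMod.natCast_zmod_val, Nat.cast_one]),
      one_nsmul, nsmul_eq_of_cast hσv (b := 2) (by rw [ZMod.natCast_zmod_val, Nat.cast_ofNat]),
      two_nsmul] at hrel
    have hn : ∀ n : ℕ, ((act σ ^ n) v : JZero L) =
        (v : JZero L) + n • ((σ : Γℚ) • (v : JZero L) - v) := fun n => by
      induction n with
      | zero => simp
      | succ n ih =>
        rw [pow_succ', Equiv.Perm.mul_apply]
        show (σ : Γℚ) • ((act σ ^ n) v : JZero L) = _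
        rw [ih]
        have hlin : ∀ a b : JZero L, (σ : Γℚ) • (a + b) = (σ : Γℚ) • a + (σ : Γℚ) • b :=
          map_add (DistribSMul.toAddMonoidHom (JZero L) (σ : Γℚ))
        have hlin' : ∀ a b : JZero L, (σ : Γℚ) • (a - b) = (σ : Γℚ) • a - (σ : Γℚ) • b :=
          map_sub (DistribSMul.toAddMonoidHom (JZero L) (σ : Γℚ))
        rw [hlin, GalRep.smul_nsmul_jZero, hlin',
          show (σ : Γℚ) • (σ : Γℚ) • (v : JZero L) - (σ : Γℚ) • (v : JZero L) =
            (σ : Γℚ) • (v : JZero L) - v by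
              rw [eq_sub_of_add_eq hrel]; abel, succ_nsmul]
        abel
    refine Subtype.ext ((hn p).trans ?_)
    rw [nsmul_sub, hσv, v.2.1, sub_zero, add_zero]
    rfl
  have hPG : IsPGroup p act.range := by
    rintro ⟨_, σ, rfl⟩
    exact ⟨1, Subtype.ext (by simpa using hpow σ)⟩
  have hmod := hPG.card_modEq_card_fixedPoints V
  have hdvd : p ∣ Nat.card V := by
    have h1 : addOrderOf (⟨x₀, hx₀⟩ : V) = p :=
      addOrderOf_eq_prime (Subtype.ext (by simpa using hx₀.1))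
        (fun h => hx₀0 (congrArg Subtype.val h))
    exact h1 ▸ addOrderOf_dvd_natCard _
  by_contra hc
  push Not at hc
  have hfix : MulAction.fixedPoints act.range V = {0} := by
    ext v
    refine ⟨fun h => ?_, fun h x => ?_⟩
    · by_contra hv
      obtain ⟨σ, hσ, hne⟩ := hc v.1 v.2 fun e => hv (Subtype.ext e)
      exact hne (congrArg Subtype.val (h ⟨act ⟨σ, hσ⟩, ⟨σ, hσ⟩, rfl⟩))
    · rw [Set.mem_singleton_iff.1 h]
      obtain ⟨_, σ, rfl⟩ := x
      exact Subtype.ext (GalRep.smul_zero_jZero _)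
  rw [hfix, Nat.card_coe_set_eq, Set.ncard_singleton] at hmod
  have h0 : Nat.card V % p = 1 % p := hmod
  rw [Nat.mod_eq_zero_of_dvd hdvd, Nat.one_mod_eq_one.2 (Fact.out : p.Prime).ne_one] at h0
  exact zero_ne_one h0

/-- The logarithm to the base `exp (2πi/p)` on the `p`-th roots of unity. -/
def rootLog (p : ℕ) (u : Additive ℂˣ) : ZMod p :=
  open Classical in
  if h : ∃ k : ℤ, JTors.zetaUnit p ^ k = u.toMul then (h.choose : ZMod p) else 0

theorem rootLog_zpow (k : ℤ) :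
    rootLog p (Additive.ofMul (JTors.zetaUnit p ^ k)) = (k : ZMod p) := by
  have h : ∃ k' : ℤ, JTors.zetaUnit p ^ k' = (Additive.ofMul (JTors.zetaUnit p ^ k)).toMul :=
    ⟨k, rfl⟩
  rw [rootLog, dif_pos h]
  have e : JTors.zetaUnit p ^ h.choose = JTors.zetaUnit p ^ k := h.choose_spec
  rw [← mul_inv_eq_one, ← zpow_neg, ← zpow_add,
    (JTors.isPrimitiveRoot_zetaUnit (Fact.out : p.Prime).ne_zero).zpow_eq_one_iff_dvd,
    ← ZMod.intCast_zmod_eq_zero_iff_dvd, Int.cast_add, Int.cast_neg, add_neg_eq_zero] at e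
  exact e

theorem rootLog_sum (X : Type) [Fintype X] (u : X → ℂˣ) (c : X → ℤ) (hu : ∀ x, u x ^ p = 1)
    (h : ∏ x, u x ^ c x = 1) : ∑ x, c x • rootLog p (Additive.ofMul (u x)) = 0 := by
  have hz := JTors.isPrimitiveRoot_zetaUnit (n := p) (Fact.out : p.Prime).ne_zero
  have hex : ∀ x, ∃ k : ℤ, JTors.zetaUnit p ^ k = u x := fun x => by
    have := NeZero.mk (Fact.out : p.Prime).ne_zero
    obtain ⟨j, -, hj⟩ := (IsPrimitiveRoot.coe_units_iff.2 hz).eq_pow_of_pow_eq_one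
      (ξ := (u x : ℂ)) (by rw [← Units.val_pow_eq_pow_val, hu, Units.val_one])
    exact ⟨j, Units.ext (by rw [zpow_natCast, Units.val_pow_eq_pow_val, hj])⟩
  choose k hk using hex
  have hsum : (p : ℤ) ∣ ∑ x, c x * k x := by
    rw [← hz.zpow_eq_one_iff_dvd, ← h]
    simp only [← hk, ← zpow_mul, mul_comm (c _)]
    classical
    induction (Finset.univ : Finset X) using Finset.induction_on with
    | empty => simp
    | insert a s ha ih => rw [Finset.sum_insert ha, Finset.prod_insert ha, zpow_add, ih]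
  rw [← ZMod.intCast_zmod_eq_zero_iff_dvd, Int.cast_sum] at hsum
  rw [← hsum]
  refine Finset.sum_congr rfl fun x _ => ?_
  rw [← hk x, rootLog_zpow, Int.cast_mul, zsmul_eq_mul]

theorem isTransfer_of_isTransferZ {N ℓ : ℕ} [NeZero ℓ] {γ : Gamma0 N}
    {σ : Option (ZMod ℓ) → Option (ZMod ℓ)} {δ : Option (ZMod ℓ) → Gamma0 N}
    (h : Periods.IsTransfer (Periods.tRep ℓ) γ σ δ) :
    LevelRaise.IsTransferZ (LevelRaise.tRepZ ℓ) (γ : SL(2, ℤ)) σ δ := by
  have hmat : ∀ i, (Periods.tRep ℓ i : Matrix (Fin 2) (Fin 2) ℝ) =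
      (LevelRaise.tRepZ ℓ i).map (Int.cast : ℤ → ℝ) := fun i => by
    rcases i with _ | j
    · rw [Periods.tRep, ModularForm.val_heckeDiagMatrix (NeZero.ne ℓ)]
      ext r s
      fin_cases r <;> fin_cases s <;> simp [LevelRaise.tRepZ]
    · rw [Periods.tRep, ModularForm.val_heckeMatrix (NeZero.ne ℓ)]
      ext r s
      fin_cases r <;> fin_cases s <;> simp [LevelRaise.tRepZ]
  intro i
  have e := congrArg (fun g : GL (Fin 2) ℝ => (g : Matrix (Fin 2) (Fin 2) ℝ)) (h i)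
  simp only [Units.val_mul, hmat] at e
  refine Matrix.map_injective (Int.cast_injective (α := ℝ)) ?_
  show Matrix.map (LevelRaise.tRepZ ℓ i * ((γ : SL(2, ℤ)) : Matrix (Fin 2) (Fin 2) ℤ))
      (Int.castRingHom ℝ) = Matrix.map (((δ i : SL(2, ℤ)) : Matrix (Fin 2) (Fin 2) ℤ) *
      LevelRaise.tRepZ ℓ (σ i)) (Int.castRingHom ℝ)
  rw [Matrix.map_mul, Matrix.map_mul]
  exact e

/-- The class of a point of the system. -/
theorem exists_coh_of_torsEigen {x : JZero L} (hx : x ∈ torsEigen W p L) (hx0 : x ≠ 0) :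
    ∃ (χ : Gamma0 L →* ℂˣ) (φ : Coh L trivChar (ZMod p)), JTors.IsTorsChar p x χ ∧ φ ≠ 0 ∧
      (∀ γ, toG0 L φ (Additive.ofMul γ) = rootLog p (Additive.ofMul (χ γ))) ∧
      ∀ (ℓ : ℕ) (hℓ : ℓ.Prime) (hℓL : ¬ ℓ ∣ L), W.IsGoodPrimeFor ℓ → ℓ ≠ p →
        opT (ZMod p) (ZMod p) trivChar (one_dvd _) hℓ hℓL φ = (W.apOfModel ℓ : ZMod p) • φ := by
  haveI : NeZero p := ⟨(Fact.out : p.Prime).ne_zero⟩
  obtain ⟨φ₀, hφ₀⟩ := JTors.exists_torsionProj p 1 x (by rw [pow_one]; exact hx.1)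
  let ψ : Additive (Gamma0 L) →+ ZMod p :=
    (Int.castAddHom (ZMod p)).comp (φ₀.comp (Periods.parProj L))
  refine ⟨JTors.expChar p φ₀, (toG0 L).symm ψ, ?_, ?_, fun γ => ?_, fun ℓ hℓ hℓL hgood hℓp => ?_⟩
  · have := JTors.isTorsChar_torsionProj p 1 φ₀
    rwa [hφ₀, pow_one] at this
  · intro h0
    refine hx0 (hφ₀ ▸ (JTors.torsionProj_eq_zero_iff p 1 φ₀).2
      ((JTors.expChar_eq_one_iff (pow_ne_zero 1 (NeZero.ne p)) φ₀).1 (MonoidHom.ext fun γ => ?_)))
    rw [JTors.expChar_apply, pow_one, MonoidHom.one_apply,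
      (JTors.isPrimitiveRoot_zetaUnit (NeZero.ne p)).zpow_eq_one_iff_dvd,
      ← ZMod.intCast_zmod_eq_zero_iff_dvd]
    have h1 : toG0 L ((toG0 L).symm ψ) (Additive.ofMul γ) = toG0 L 0 (Additive.ofMul γ) := by
      rw [h0]
    rw [AddEquiv.apply_symm_apply, map_zero] at h1
    exact h1
  · rw [AddEquiv.apply_symm_apply, JTors.expChar_apply, rootLog_zpow]
    rfl
  · haveI : Fact ℓ.Prime := ⟨hℓ⟩
    haveI : NeZero ℓ := ⟨hℓ.ne_zero⟩
    refine (toG0 L).injective ?_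
    rw [toG0_opT, toG0_smul, AddEquiv.apply_symm_apply]
    refine AddMonoidHom.ext fun γ => ?_
    obtain ⟨γ, rfl⟩ := Additive.ofMul.surjective γ
    obtain ⟨σ, δ, h⟩ := Periods.exists_isTransfer_tRep hℓL γ
    rw [LevelRaise.heckeOp_apply hℓ hℓL _ γ (isTransfer_of_isTransferZ h), AddMonoidHom.smul_apply,
      smul_eq_mul]
    have hT := hx.2 ℓ hℓ hgood fun hd => hℓL ((hℓ.dvd_mul.1 hd).resolve_right fun hd' =>
      hℓp ((Nat.prime_dvd_prime_iff_eq hℓ Fact.out).1 hd'))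
    set t := CuspForm.heckeAlgebra.T (k := 2) hℓ hℓL (S := GalRep.levelPrimes L)
      (GalRep.notMem_levelPrimes hℓL)
    rw [← hφ₀, ← JTors.torsionProj_heckeAct p 1 hℓ hℓL (GalRep.notMem_levelPrimes hℓL) φ₀,
      ← map_nsmul, ← sub_eq_zero, ← map_sub, JTors.torsionProj_eq_zero_iff] at hT
    obtain ⟨ψ', hψ'⟩ := hT
    have hval := DFunLike.congr_fun hψ' (Periods.parProj L (Additive.ofMul γ))
    rw [AddMonoidHom.sub_apply, AddMonoidHom.nsmul_apply, AddMonoidHom.nsmul_apply,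
      Periods.heckeAct_T_apply (Periods.hdim L) hℓ hℓL (GalRep.notMem_levelPrimes hℓL) φ₀ γ σ δ h]
      at hval
    have hc := congrArg (fun z : ℤ => (z : ZMod p)) hval
    simp only [Int.cast_sub, Int.cast_sum, nsmul_eq_mul, Int.cast_mul, Int.cast_natCast,
      ZMod.natCast_zmod_val, pow_one, ZMod.natCast_self, zero_mul, sub_eq_zero] at hc
    exact hc

/-- An irreducible `W[p]` is not Eisenstein. -/
theorem exists_notEisenstein (hΔ : W.Δ ≠ 0) (hp2 : p ≠ 2) (hirr : W.ModRepIsIrreducible p)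
    (M : ℕ) [NeZero M] {Q : ℕ} (hQ : Q ≠ 0) :
    ∃ ℓ : ℕ, ℓ.Prime ∧ ¬ ℓ ∣ M ∧ W.IsGoodPrimeFor ℓ ∧ ℓ ≠ p ∧ (ℓ : ZMod Q) = 1 ∧
      (W.apOfModel ℓ : ZMod p) ≠ (ℓ : ZMod p) + 1 := by
  classical
  by_contra hc
  push Not at hc
  have hmp : Q * p ≠ 0 := mul_ne_zero hQ (Fact.out : p.Prime).ne_zero
  set K := AlgebraicClosure (ZMod p)
  let φ := algebraMap (ZMod p) K
  have h2 : (2 : ZMod p) ≠ 0 := fun h => hp2 <| (Nat.prime_dvd_prime_iff_eq Fact.out
    Nat.prime_two).1 ((ZMod.natCast_eq_zero_iff _ _).1 (by exact_mod_cast h))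
  refine false_of_trace_two (Deformation.mapRep φ (torsMat hΔ p))
    ((TW.muField (Q * p)).fixingSubgroup : Set Γℚ) (fun g hg h hh => mul_mem hg hh)
    (fun g h hh => TW.fixing_muField_conj g hh) (fun g h => TW.commutator_mem_muField hmp g h)
    (fun h => h2 (φ.injective (by simpa [map_ofNat] using h))) ?_
    (not_hasStableLine_map hΔ p φ hp2 hirr)
  intro h hh
  obtain ⟨L₀, hL₀, hker⟩ := (torsRep hΔ p).factorsThroughFiniteLevel
  have := TW.finiteDimensional_muField hmp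
  obtain ⟨ℓ, hℓ, hℓS, A, hA, σ, hσ, hag⟩ := GalRep.frobeniusDense (L₀ ⊔ TW.muField (Q * p))
    inferInstance h (M.primeFactors ∪ W.Δ.natAbs.primeFactors ∪ (Q * p).divisors)
  simp only [Finset.mem_union, Nat.mem_primeFactors, Nat.mem_divisors, not_or] at hℓS
  obtain ⟨⟨hℓM, hℓΔ⟩, hℓm⟩ := hℓS
  have hℓ1 : (ℓ : ZMod (Q * p)) = 1 := by
    refine natCast_eq_one_of_frobenius hmp hℓ (fun hd => hℓm ⟨hd, hmp⟩) hA hσ ?_
    have hh' : h ∈ (TW.muField (Q * p)).fixingSubgroup := hh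
    rw [TW.mem_fixing_muField] at hh' ⊢
    intro x hx
    rw [hag x (le_sup_right (a := L₀)
      (IntermediateField.subset_adjoin ℚ _ hx : x ∈ TW.muField (Q * p)))]
    exact hh' x hx
  have hℓQ : (ℓ : ZMod Q) = 1 := by
    have := congrArg (ZMod.castHom (dvd_mul_right Q p) (ZMod Q)) hℓ1
    rwa [map_natCast, map_one] at this
  have hℓp : (ℓ : ZMod p) = 1 := by
    have := congrArg (ZMod.castHom (dvd_mul_left p Q) (ZMod p)) hℓ1
    rwa [map_natCast, map_one] at this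
  have hne : ℓ ≠ p := fun e => by rw [e, ZMod.natCast_self] at hℓp; exact zero_ne_one hℓp
  have hgood : W.IsGoodPrimeFor ℓ := fun hd =>
    hℓΔ ⟨hℓ, Int.natCast_dvd.1 hd, Int.natAbs_ne_zero.2 hΔ⟩
  obtain ⟨ht, -⟩ := trace_det_torsMat_frobenius (p := p) hΔ hℓ hgood hne A hA σ hσ
  have e3 : torsMat hΔ p σ = torsMat hΔ p h := by
    conv_lhs => rw [show σ = h * (h⁻¹ * σ) by group]
    rw [map_mul, torsMat_eq hΔ p (h⁻¹ * σ), hker _ fun a ha =>
      (GalRep.fixing_of_agree hag).1 a (le_sup_left (b := TW.muField (Q * p)) ha),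
      LinearMap.toMatrix_one, mul_one]
  rw [Deformation.mapRep_apply, ← RingHom.mapMatrix_apply, RingHom.mapMatrix_apply,
    ← AddMonoidHom.map_trace φ, ← e3, ht,
    hc ℓ hℓ (fun hd => hℓM ⟨hℓ, hd, NeZero.ne M⟩) hgood hne hℓQ, hℓp, map_add, map_one]
  norm_num

end FLTAgent.RT.Carayol
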